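import Mathlib

/-!
# Reduction step for `descent15`

A rational point `(x, y)` with `y ≠ 0` on `y² = x (x - 1) (x - 81)` yields an integer solution of
`U² = V² + E²`, `U² = W² + 81 E²` with `E ≠ 0` (a 2-descent on the curve 15a2).
-/

namespace Fermat.Agent.S51

/-- The statement of Theorem A (proved in `NoSol.lean`). -/
def NoSolStmt : Prop :=
  ∀ U V W E : ℤ, E ≠ 0 → U ^ 2 = V ^ 2 + E ^ 2 → U ^ 2 = W ^ 2 + 81 * E ^ 2 → False

theorem prime_dvd_of_squarefree_mul_eq_sq {d X m : ℕ} (hd : Squarefree d) (h : d * X = m ^ 2)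
    {l : ℕ} (hl : l.Prime) (hld : l ∣ d) : l ∣ X := by
  have h1 : l ∣ m ^ 2 := h ▸ Dvd.dvd.mul_right hld X
  have h2 : l ∣ m := hl.dvd_of_dvd_pow h1
  have h3 : l ^ 2 ∣ d * X := h ▸ pow_dvd_pow_of_dvd h2 2
  by_contra hX
  have hcop : Nat.Coprime (l ^ 2) X :=
    Nat.Coprime.pow_left 2 ((Nat.Prime.coprime_iff_not_dvd hl).mpr hX)
  have h4 : l ^ 2 ∣ d := hcop.dvd_of_dvd_mul_right h3
  have := hd l (by rwa [pow_two] at h4)
  exact hl.one_lt.ne' (Nat.isUnit_iff.mp this)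

/-- A squarefree number all of whose prime factors divide `n` divides `n`. -/
theorem squarefree_dvd_of_forall_prime {d n : ℕ} (hd : Squarefree d)
    (h : ∀ l : ℕ, l.Prime → l ∣ d → l ∣ n) (hn : n ≠ 0) : d ∣ n := by
  have hd0 : d ≠ 0 := hd.ne_zero
  rw [← Nat.prod_primeFactors_of_squarefree hd]
  have hsub : d.primeFactors ⊆ n.primeFactors := by
    intro l hl
    rw [Nat.mem_primeFactors] at hl ⊢
    exact ⟨hl.1, h l hl.1 hl.2.1, hn⟩
  exact (Finset.prod_dvd_prod_of_subset _ _ _ hsub).trans (Nat.prod_primeFactors_dvd n)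

theorem squarefree_eq_of_mul_eq_sq {A B m : ℕ} (hA : Squarefree A) (hB : Squarefree B)
    (h : A * B = m ^ 2) : A = B := by
  apply Nat.dvd_antisymm
  · exact squarefree_dvd_of_forall_prime hA
      (fun l hl hld => prime_dvd_of_squarefree_mul_eq_sq hA h hl hld) hB.ne_zero
  · exact squarefree_dvd_of_forall_prime hB
      (fun l hl hld => prime_dvd_of_squarefree_mul_eq_sq hB (by rw [mul_comm]; exact h) hl hld)
      hA.ne_zero


theorem split_nat (P Q R M : ℕ) (hP : 0 < P) (hQ : 0 < Q) (hR : 0 < R)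
    (hPQ : Nat.Coprime P Q) (hPR : P.gcd R ∣ 81) (hQR : Q.gcd R ∣ 80)
    (h : P * Q * R = M ^ 2) :
    ∃ d1 d2 u v w : ℕ, (d1 = 1 ∨ d1 = 3) ∧ (d2 = 1 ∨ d2 = 2 ∨ d2 = 5 ∨ d2 = 10) ∧
      P = d1 * u ^ 2 ∧ Q = d2 * v ^ 2 ∧ R = d1 * d2 * w ^ 2 := by
  obtain ⟨d1, u, hu, hd1⟩ := Nat.sq_mul_squarefree P
  obtain ⟨d2, v, hv, hd2⟩ := Nat.sq_mul_squarefree Q
  obtain ⟨d3, w, hw, hd3⟩ := Nat.sq_mul_squarefree R
  have hu0 : u ≠ 0 := by rintro rfl; simp at hu; omega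
  have hv0 : v ≠ 0 := by rintro rfl; simp at hv; omega
  have hw0 : w ≠ 0 := by rintro rfl; simp at hw; omega
  have hdiv : (u * v * w) ^ 2 ∣ M ^ 2 := ⟨d1 * d2 * d3, by rw [← h, ← hu, ← hv, ← hw]; ring⟩
  have hdiv' : u * v * w ∣ M := (Nat.pow_dvd_pow_iff two_ne_zero).mp hdiv
  obtain ⟨m, hm⟩ := hdiv'
  have hprod : d1 * d2 * d3 = m ^ 2 := by
    have h3 : (u * v * w) ^ 2 * (d1 * d2 * d3) = (u * v * w) ^ 2 * m ^ 2 := by
      rw [← mul_pow, ← hm, ← h, ← hu, ← hv, ← hw]; ring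
    exact Nat.eq_of_mul_eq_mul_left (by positivity) h3
  have hd1P : d1 ∣ P := ⟨u ^ 2, by rw [← hu]; ring⟩
  have hd2Q : d2 ∣ Q := ⟨v ^ 2, by rw [← hv]; ring⟩
  have hd3R : d3 ∣ R := ⟨w ^ 2, by rw [← hw]; ring⟩
  have hd12 : Nat.Coprime d1 d2 :=
    Nat.Coprime.coprime_dvd_left hd1P (Nat.Coprime.coprime_dvd_right hd2Q hPQ)
  have hsq12 : Squarefree (d1 * d2) := (Nat.squarefree_mul hd12).mpr ⟨hd1, hd2⟩
  have hd3eq : d1 * d2 = d3 := squarefree_eq_of_mul_eq_sq hsq12 hd3 hprod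
  have h1 : d1 ∣ 3 := by
    refine squarefree_dvd_of_forall_prime hd1 (fun l hl hld => ?_) (by norm_num)
    have hlP : l ∣ P := hld.trans hd1P
    have hlR : l ∣ R := (hld.trans ⟨d2, hd3eq.symm⟩).trans hd3R
    have h81 : l ∣ 3 ^ 4 := (Nat.dvd_gcd hlP hlR).trans (by simpa using hPR)
    exact hl.dvd_of_dvd_pow h81
  have h2 : d2 ∣ 10 := by
    refine squarefree_dvd_of_forall_prime hd2 (fun l hl hld => ?_) (by norm_num)
    have hlQ : l ∣ Q := hld.trans hd2Q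
    have hlR : l ∣ R := (hld.trans ⟨d1, by rw [← hd3eq]; ring⟩).trans hd3R
    have h80 : l ∣ 2 ^ 4 * 5 := (Nat.dvd_gcd hlQ hlR).trans (by simpa using hQR)
    rcases (Nat.Prime.dvd_mul hl).mp h80 with h | h
    · exact (hl.dvd_of_dvd_pow h).trans (by norm_num)
    · exact h.trans (by norm_num)
  refine ⟨d1, d2, u, v, w, ?_, ?_, ?_, ?_, ?_⟩
  · have := Nat.le_of_dvd (by norm_num) h1
    interval_cases d1 <;> simp_all
  · have := Nat.le_of_dvd (by norm_num) h2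
    interval_cases d2 <;> simp_all
  · rw [← hu]; ring
  · rw [← hv]; ring
  · rw [← hw, hd3eq]; ring


theorem sq_emod_32 (x : ℤ) :
    x ^ 2 % 32 = 0 ∨ x ^ 2 % 32 = 1 ∨ x ^ 2 % 32 = 4 ∨ x ^ 2 % 32 = 9 ∨ x ^ 2 % 32 = 16 ∨
      x ^ 2 % 32 = 17 ∨ x ^ 2 % 32 = 25 := by
  have h : x ^ 2 % 32 = (x % 32) ^ 2 % 32 := by
    rw [pow_two, pow_two, Int.mul_emod]
  have h0 : 0 ≤ x % 32 := Int.emod_nonneg _ (by norm_num)
  have h1 : x % 32 < 32 := Int.emod_lt_of_pos _ (by norm_num)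
  rw [h]
  generalize x % 32 = r at h0 h1
  interval_cases r <;> simp

theorem sq_emod_3 (x : ℤ) : x ^ 2 % 3 = 0 ∨ x ^ 2 % 3 = 1 := by
  have h : x ^ 2 % 3 = (x % 3) ^ 2 % 3 := by
    rw [pow_two, pow_two, Int.mul_emod]
  have h0 : 0 ≤ x % 3 := Int.emod_nonneg _ (by norm_num)
  have h1 : x % 3 < 3 := Int.emod_lt_of_pos _ (by norm_num)
  rw [h]
  generalize x % 3 = r at h0 h1
  interval_cases r <;> simp

theorem three_dvd_of_sq {x : ℤ} (h : (3 : ℤ) ∣ x ^ 2) : (3 : ℤ) ∣ x :=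
  Int.prime_three.dvd_of_dvd_pow h

/-- `x² = d y² (mod 3)` with `d ≡ 2 (mod 3)` forces `3 ∣ x` and `3 ∣ y`. -/
theorem three_dvd_of_sq_sub {x y d : ℤ} (hd : d % 3 = 2) (h : (3 : ℤ) ∣ x ^ 2 - d * y ^ 2) :
    (3 : ℤ) ∣ x ∧ (3 : ℤ) ∣ y := by
  have hx := sq_emod_3 x
  have hy := sq_emod_3 y
  obtain ⟨k, hk⟩ := h
  obtain ⟨q, hq⟩ : ∃ q : ℤ, d = 3 * q + 2 := ⟨d / 3, by omega⟩
  have hk' : x ^ 2 - 2 * y ^ 2 = 3 * (k + q * y ^ 2) := by rw [hq] at hk; linear_combination hk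
  have h3 : x ^ 2 % 3 = 0 ∧ y ^ 2 % 3 = 0 := by omega
  exact ⟨three_dvd_of_sq (Int.dvd_of_emod_eq_zero h3.1),
    three_dvd_of_sq (Int.dvd_of_emod_eq_zero h3.2)⟩


theorem sq_emod_8 (x : ℤ) : x ^ 2 % 8 = 0 ∨ x ^ 2 % 8 = 1 ∨ x ^ 2 % 8 = 4 := by
  have h : x ^ 2 % 8 = (x % 8) ^ 2 % 8 := by
    rw [pow_two, pow_two, Int.mul_emod]
  have h0 : 0 ≤ x % 8 := Int.emod_nonneg _ (by norm_num)
  have h1 : x % 8 < 8 := Int.emod_lt_of_pos _ (by norm_num)
  rw [h]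
  generalize x % 8 = r at h0 h1
  interval_cases r <;> simp

/-- case `d1 = 1`, `d2 ∈ {2, 10}`: impossible 2-adically. -/
theorem core_case_two {u e v w d : ℤ} (hd : d = 2 ∨ d = 10)
    (h1 : u ^ 2 - e ^ 2 = d * v ^ 2) (h2 : u ^ 2 - 81 * e ^ 2 = d * w ^ 2) :
    (2 : ℤ) ∣ u ^ 2 ∧ (2 : ℤ) ∣ e ^ 2 := by
  have hu := sq_emod_8 u
  have he := sq_emod_8 e
  by_contra hcon
  have hodd : u ^ 2 % 8 = 1 ∧ e ^ 2 % 8 = 1 := by
    rcases hd with rfl | rfl <;> omega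
  have hv4 : v ^ 2 % 4 = 0 := by
    rcases hd with rfl | rfl <;> omega
  have hw4 : w ^ 2 % 4 = 0 := by
    rcases hd with rfl | rfl <;> omega
  have hv' : v ^ 2 % 32 = 0 ∨ v ^ 2 % 32 = 4 ∨ v ^ 2 % 32 = 16 := by
    have hv := sq_emod_32 v
    omega
  have hw' : w ^ 2 % 32 = 0 ∨ w ^ 2 % 32 = 4 ∨ w ^ 2 % 32 = 16 := by
    have hw := sq_emod_32 w
    omega
  rcases hd with rfl | rfl <;> omega

/-- case `d1 = 3`: impossible 3-adically. -/
theorem core_case_three {u e v w d : ℤ} (hd : d = 1 ∨ d = 2 ∨ d = 5 ∨ d = 10)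
    (h1 : 3 * u ^ 2 - e ^ 2 = d * v ^ 2) (h2 : 3 * u ^ 2 - 81 * e ^ 2 = 3 * d * w ^ 2) :
    (3 : ℤ) ∣ e ^ 2 := by
  have he := sq_emod_3 e
  have hv := sq_emod_3 v
  have key : ∀ d' : ℤ, d' % 3 = 2 → u ^ 2 - 27 * e ^ 2 = d' * w ^ 2 → (3 : ℤ) ∣ e ^ 2 := by
    intro d' hd' h3
    obtain ⟨⟨u1, hu1⟩, ⟨w1, hw1⟩⟩ := three_dvd_of_sq_sub (x := u) (y := w) hd'
      ⟨9 * e ^ 2, by linear_combination h3⟩
    have h4 : u1 ^ 2 - d' * w1 ^ 2 = 3 * e ^ 2 := by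
      have : 9 * (u1 ^ 2 - d' * w1 ^ 2) = 9 * (3 * e ^ 2) := by
        rw [hu1, hw1] at h3; linear_combination h3
      linarith
    obtain ⟨⟨u2, hu2⟩, ⟨w2, hw2⟩⟩ := three_dvd_of_sq_sub (x := u1) (y := w1) hd'
      ⟨e ^ 2, by linear_combination h4⟩
    refine ⟨u2 ^ 2 - d' * w2 ^ 2, ?_⟩
    have : 3 * (e ^ 2) = 3 * (3 * (u2 ^ 2 - d' * w2 ^ 2)) := by
      rw [hu2, hw2] at h4; linear_combination -h4
    linarith
  have h3 : u ^ 2 - 27 * e ^ 2 = d * w ^ 2 := by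
    have : 3 * (u ^ 2 - 27 * e ^ 2) = 3 * (d * w ^ 2) := by linear_combination h2
    linarith
  rcases hd with rfl | rfl | rfl | rfl
  · apply Int.dvd_of_emod_eq_zero; omega
  · exact key 2 (by norm_num) h3
  · exact key 5 (by norm_num) h3
  · apply Int.dvd_of_emod_eq_zero; omega


theorem core (hns : NoSolStmt) (a b N : ℤ) (hb : 0 < b) (hab : 81 * b < a)
    (hcop : IsCoprime a b)
    (h : N ^ 2 = a * b * (a - b) * (a - 81 * b)) : False := by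
  have ha : 0 < a := by linarith
  have hQpos : 0 < a - b := by linarith
  have hRpos : 0 < a - 81 * b := by linarith
  have hc1 : IsCoprime b a := hcop.symm
  have hc2 : IsCoprime b (a - b) := by
    have : IsCoprime b (a + (-1) * b) := hc1.add_mul_right_right (-1)
    simpa [sub_eq_add_neg] using this
  have hc3 : IsCoprime b (a - 81 * b) := by
    have : IsCoprime b (a + (-81) * b) := hc1.add_mul_right_right (-81)
    simpa [sub_eq_add_neg] using this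
  have hcop1 : IsCoprime b (a * (a - b) * (a - 81 * b)) := (hc1.mul_right hc2).mul_right hc3
  have hprodpos : 0 < a * (a - b) * (a - 81 * b) := by positivity
  obtain ⟨e, he⟩ : ∃ e : ℤ, b = e ^ 2 := by
    obtain ⟨e, he | he⟩ := Int.sq_of_isCoprime hcop1 (c := N) (by rw [h]; ring)
    · exact ⟨e, he⟩
    · nlinarith [sq_nonneg e]
  obtain ⟨M, hM⟩ : ∃ M : ℤ, a * (a - b) * (a - 81 * b) = M ^ 2 := by
    obtain ⟨M, hM | hM⟩ := Int.sq_of_isCoprime hcop1.symm (c := N) (by rw [h]; ring)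
    · exact ⟨M, hM⟩
    · nlinarith [sq_nonneg M]
  have he0 : e ≠ 0 := by rintro rfl; simp at he; omega
  -- pass to ℕ
  obtain ⟨P, hP⟩ : ∃ P : ℕ, (P : ℤ) = a := ⟨a.toNat, Int.toNat_of_nonneg ha.le⟩
  obtain ⟨Q, hQ⟩ : ∃ Q : ℕ, (Q : ℤ) = a - b := ⟨(a - b).toNat, Int.toNat_of_nonneg hQpos.le⟩
  obtain ⟨R, hR⟩ : ∃ R : ℕ, (R : ℤ) = a - 81 * b :=
    ⟨(a - 81 * b).toNat, Int.toNat_of_nonneg hRpos.le⟩
  have hnat : P * Q * R = M.natAbs ^ 2 := by
    zify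
    rw [hP, hQ, hR, sq_abs]
    exact hM
  have hPpos : 0 < P := by exact_mod_cast hP ▸ ha
  have hQpos' : 0 < Q := by exact_mod_cast hQ ▸ hQpos
  have hRpos' : 0 < R := by exact_mod_cast hR ▸ hRpos
  have hcPQ : IsCoprime a (a - b) := by
    have : IsCoprime a (-b) := hcop.neg_right
    have : IsCoprime a (-b + 1 * a) := this.add_mul_right_right 1
    simpa [sub_eq_add_neg, add_comm] using this
  have hPQ : Nat.Coprime P Q := by
    rw [← Nat.isCoprime_iff_coprime, hP, hQ]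
    exact hcPQ
  have hPR : P.gcd R ∣ 81 := by
    have hgP : ((P.gcd R : ℕ) : ℤ) ∣ a := hP ▸ Int.natCast_dvd_natCast.mpr (Nat.gcd_dvd_left P R)
    have hgR : ((P.gcd R : ℕ) : ℤ) ∣ a - 81 * b :=
      hR ▸ Int.natCast_dvd_natCast.mpr (Nat.gcd_dvd_right P R)
    have h81 : ((P.gcd R : ℕ) : ℤ) ∣ 81 * b := by
      have := dvd_sub hgP hgR
      simpa using this
    have hcg : IsCoprime ((P.gcd R : ℕ) : ℤ) b := hcop.of_isCoprime_of_dvd_left hgP
    have : ((P.gcd R : ℕ) : ℤ) ∣ ((81 : ℕ) : ℤ) := by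
      simpa using hcg.dvd_of_dvd_mul_right h81
    exact Int.natCast_dvd_natCast.mp this
  have hQR : Q.gcd R ∣ 80 := by
    have hgQ : ((Q.gcd R : ℕ) : ℤ) ∣ a - b :=
      hQ ▸ Int.natCast_dvd_natCast.mpr (Nat.gcd_dvd_left Q R)
    have hgR : ((Q.gcd R : ℕ) : ℤ) ∣ a - 81 * b :=
      hR ▸ Int.natCast_dvd_natCast.mpr (Nat.gcd_dvd_right Q R)
    have h80 : ((Q.gcd R : ℕ) : ℤ) ∣ 80 * b := by
      have := dvd_sub hgQ hgR
      have e1 : a - b - (a - 81 * b) = 80 * b := by ring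
      rwa [e1] at this
    have hcg : IsCoprime ((Q.gcd R : ℕ) : ℤ) b := hc2.symm.of_isCoprime_of_dvd_left hgQ
    have : ((Q.gcd R : ℕ) : ℤ) ∣ ((80 : ℕ) : ℤ) := by
      simpa using hcg.dvd_of_dvd_mul_right h80
    exact Int.natCast_dvd_natCast.mp this
  obtain ⟨d1, d2, u, v, w, hd1, hd2, hPu, hQv, hRw⟩ :=
    split_nat P Q R M.natAbs hPpos hQpos' hRpos' hPQ hPR hQR hnat
  have hau : a = (d1 : ℤ) * (u : ℤ) ^ 2 := by rw [← hP, hPu]; push_cast; ring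
  have hbv : a - b = (d2 : ℤ) * (v : ℤ) ^ 2 := by rw [← hQ, hQv]; push_cast; ring
  have hcw : a - 81 * b = (d1 : ℤ) * (d2 : ℤ) * (w : ℤ) ^ 2 := by
    rw [← hR, hRw]; push_cast; ring
  have hw0 : (w : ℤ) ≠ 0 := by
    intro hw
    rw [hw] at hcw
    have : a - 81 * b = 0 := by rw [hcw]; ring
    omega
  rcases hd1 with rfl | rfl
  · -- d1 = 1
    rcases hd2 with rfl | rfl | rfl | rfl
    · -- d2 = 1
      refine hns u v w e he0 ?_ ?_
      · rw [← he]; push_cast at hau hbv; linarith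
      · rw [← he]; push_cast at hau hcw; linarith
    · -- d2 = 2
      have h1 : (u : ℤ) ^ 2 - e ^ 2 = 2 * (v : ℤ) ^ 2 := by
        push_cast at hau hbv; rw [← he]; linarith
      have h2 : (u : ℤ) ^ 2 - 81 * e ^ 2 = 2 * (w : ℤ) ^ 2 := by
        push_cast at hau hcw; rw [← he]; linarith
      obtain ⟨hu2, he2⟩ := core_case_two (Or.inl rfl) h1 h2
      have h2a : (2 : ℤ) ∣ a := by rw [hau]; push_cast; simpa using hu2
      have h2b : (2 : ℤ) ∣ b := by rw [he]; exact he2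
      have := hcop.isUnit_of_dvd' h2a h2b
      exact absurd (Int.isUnit_iff.mp this) (by norm_num)
    · -- d2 = 5
      refine hns (9 * v) (4 * u) (36 * e) w hw0 ?_ ?_
      · push_cast at hau hbv hcw; rw [he] at hbv hcw; nlinarith
      · push_cast at hau hbv hcw; rw [he] at hbv hcw; nlinarith
    · -- d2 = 10
      have h1 : (u : ℤ) ^ 2 - e ^ 2 = 10 * (v : ℤ) ^ 2 := by
        push_cast at hau hbv; rw [← he]; linarith
      have h2 : (u : ℤ) ^ 2 - 81 * e ^ 2 = 10 * (w : ℤ) ^ 2 := by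
        push_cast at hau hcw; rw [← he]; linarith
      obtain ⟨hu2, he2⟩ := core_case_two (Or.inr rfl) h1 h2
      have h2a : (2 : ℤ) ∣ a := by rw [hau]; push_cast; simpa using hu2
      have h2b : (2 : ℤ) ∣ b := by rw [he]; exact he2
      have := hcop.isUnit_of_dvd' h2a h2b
      exact absurd (Int.isUnit_iff.mp this) (by norm_num)
  · -- d1 = 3
    have h1 : 3 * (u : ℤ) ^ 2 - e ^ 2 = (d2 : ℤ) * (v : ℤ) ^ 2 := by
      push_cast at hau hbv; rw [← he]; linarith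
    have h2 : 3 * (u : ℤ) ^ 2 - 81 * e ^ 2 = 3 * (d2 : ℤ) * (w : ℤ) ^ 2 := by
      push_cast at hau hcw; rw [← he]; linarith
    have hd2' : (d2 : ℤ) = 1 ∨ (d2 : ℤ) = 2 ∨ (d2 : ℤ) = 5 ∨ (d2 : ℤ) = 10 := by
      rcases hd2 with rfl | rfl | rfl | rfl <;> simp
    have h3e := core_case_three hd2' h1 h2
    have h3a : (3 : ℤ) ∣ a := by rw [hau]; push_cast; exact Dvd.intro _ rfl
    have h3b : (3 : ℤ) ∣ b := by rw [he]; exact h3e
    have := hcop.isUnit_of_dvd' h3a h3b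
    exact absurd (Int.isUnit_iff.mp this) (by norm_num)


/-- integer core applied to a rational point with `81 < x`. -/
theorem no_point_gt (hns : NoSolStmt) (x y : ℚ) (hx : 81 < x)
    (h : y ^ 2 = x * (x - 1) * (x - 81)) : False := by
  set a : ℤ := x.num with ha
  set b : ℤ := (x.den : ℤ) with hb
  have hbpos : 0 < b := by simp [hb, x.den_pos]
  have hbq : (0 : ℚ) < (b : ℚ) := by exact_mod_cast hbpos
  have hxab : x = (a : ℚ) / (b : ℚ) := by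
    rw [ha, hb]; push_cast; exact (Rat.num_div_den x).symm
  have hcop : IsCoprime a b := by
    rw [Int.isCoprime_iff_gcd_eq_one, ha, hb]
    have := x.reduced
    simpa [Int.gcd, Nat.Coprime] using this
  have hab : 81 * b < a := by
    have h1 : (81 : ℚ) * (b : ℚ) < (a : ℚ) := by
      rw [hxab] at hx
      rwa [lt_div_iff₀ hbq] at hx
    exact_mod_cast h1
  have hsq : IsSquare (((a * b * (a - b) * (a - 81 * b) : ℤ)) : ℚ) := by
    refine ⟨y * (b : ℚ) ^ 2, ?_⟩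
    have hb0 : (b : ℚ) ≠ 0 := hbq.ne'
    have : (y * (b : ℚ) ^ 2) * (y * (b : ℚ) ^ 2) = y ^ 2 * (b : ℚ) ^ 4 := by ring
    rw [this, h, hxab]
    push_cast
    field_simp
  rw [Rat.isSquare_intCast_iff] at hsq
  obtain ⟨N, hN⟩ := hsq
  exact core hns a b N hbpos hab hcop (by rw [hN]; ring)

theorem descent15_of_noSol (hns : NoSolStmt) (x y : ℚ)
    (h : y ^ 2 = x * (x - 1) * (x - 81)) : y = 0 := by
  by_contra hy
  have hpos : 0 < x * (x - 1) * (x - 81) := by rw [← h]; positivity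
  by_cases hx : 81 < x
  · exact no_point_gt hns x y hx h
  · have hx81 : x ≤ 81 := not_lt.mp hx
    have hx0 : 0 < x := by
      by_contra hneg
      have hx0 : x ≤ 0 := not_lt.mp hneg
      have h1 : 0 ≤ (x - 1) * (x - 81) := by nlinarith
      have : x * ((x - 1) * (x - 81)) ≤ 0 := mul_nonpos_of_nonpos_of_nonneg hx0 h1
      nlinarith
    have hx1 : x < 1 := by
      by_contra hge
      have hge1 : 1 ≤ x := not_lt.mp hge
      have h1 : (x - 1) * (x - 81) ≤ 0 :=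
        mul_nonpos_of_nonneg_of_nonpos (by linarith) (by linarith)
      have : x * ((x - 1) * (x - 81)) ≤ 0 := mul_nonpos_of_nonneg_of_nonpos hx0.le h1
      nlinarith
    refine no_point_gt hns (81 / x) (81 * y / x ^ 2) ?_ ?_
    · rw [lt_div_iff₀ hx0]; nlinarith
    · have hx0' : x ≠ 0 := hx0.ne'
      field_simp
      rw [h]
      ring

end Fermat.Agent.S51
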