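import Fermat.Agent.S51.NoSol
import Fermat.Agent.S51.Descent15Red

/-!
# `descent15`: the curve `y² = x (x - 1) (x - 81)` (15a2) has rank 0

Every rational point has `y = 0`.
-/

namespace Fermat.Agent.S51

theorem descent15 (x y : ℚ) (h : y ^ 2 = x * (x - 1) * (x - 81)) : y = 0 :=
  descent15_of_noSol (fun U V W E hE h1 h2 => no_sol U V W E hE h1 h2) x y h

end Fermat.Agent.S51
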