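import Mathlib

/-!
# S51, Part M (modular-curve algebra), key polynomial identity

`keyQ u w * keyPsi u w = keyNum u w`, where `keyPsi` is the 3-division polynomial of the universal
curve with a 5-isogeny (in the normalised coordinates `u`, `w`) and the right-hand side is the
numerator of the relation `(1 - rho) * h^2 - 5 * rho^3 * h - rho^5 * (rho + 9) = 0` defining
the modular curve of level 15.
-/

namespace Fermat.Agent.S51

/-- `d = u^2 + 4`. -/
def keyD (u : ℚ) : ℚ := u ^ 2 + 4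

/-- `c = u^2 - 12 u + 16`. -/
def keyC (u : ℚ) : ℚ := u ^ 2 - 12 * u + 16

/-- `e = u^2 - 18 u + 76`. -/
def keyE (u : ℚ) : ℚ := u ^ 2 - 18 * u + 76

/-- The 3-division polynomial in normalised coordinates. -/
def keyPsi (u w : ℚ) : ℚ :=
  48 * keyD u ^ 2 * w ^ 4 - 72 * keyD u * keyC u * w ^ 2 + 48 * keyD u * keyE u * w
    - 9 * keyC u ^ 2

/-- Denominator of `rho`. -/
def keyR (u w : ℚ) : ℚ := 4 * keyD u * (w ^ 2 - w) + u ^ 2 - 32

/-- Numerator of `h` (up to the factor `-3`). -/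
def keyN (u w : ℚ) : ℚ := 4 * keyD u * w ^ 2 - 9 * keyC u

/-- Denominator of `h`. -/
def keyM (u w : ℚ) : ℚ := 4 * keyD u * w ^ 2 - keyC u

/-- Coefficient of `w^0` in the cofactor. -/
def keyQ0 (u : ℚ) : ℚ :=
  -81*u^12 + 27216*u^10 - 3110400*u^8 + 127733760*u^6 - 796262400*u^4 + 1783627776*u^2 - 1358954496

/-- Coefficient of `w^1` in the cofactor. -/
def keyQ1 (u : ℚ) : ℚ :=
  1512*u^12 - 2592*u^11 - 412128*u^10 + 694656*u^9 + 36370944*u^8 - 54908928*u^7 - 1043988480*u^6 + 1064337408*u^5 + 1783627776*u^4 + 2463105024*u^3 + 16986931200*u^2 - 10871635968*u - 37144756224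

/-- Coefficient of `w^2` in the cofactor. -/
def keyQ2 (u : ℚ) : ℚ :=
  -12600*u^12 + 43200*u^11 + 2694816*u^10 - 8757504*u^9 - 170574336*u^8 + 478531584*u^7 + 2806677504*u^6 - 3923804160*u^5 + 12444696576*u^4 - 29245833216*u^3 + 5520752640*u^2 - 21290287104*u + 49073356800

/-- Coefficient of `w^3` in the cofactor. -/
def keyQ3 (u : ℚ) : ℚ :=
  61536*u^12 - 317952*u^11 - 9844992*u^10 + 46393344*u^9 + 391251456*u^8 - 1553817600*u^7 - 1814347776*u^6 - 2663940096*u^5 - 30879645696*u^4 + 65555398656*u^3 - 46808432640*u^2 + 193198030848*u + 80228646912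

/-- Coefficient of `w^4` in the cofactor. -/
def keyQ4 (u : ℚ) : ℚ :=
  -193968*u^12 + 1354752*u^11 + 21520512*u^10 - 132157440*u^9 - 380885760*u^8 + 2052145152*u^7 - 3177750528*u^6 + 24707137536*u^5 - 1750007808*u^4 + 63587745792*u^3 + 12287213568*u^2 + 25593643008*u - 5888802816

/-- Coefficient of `w^5` in the cofactor. -/
def keyQ5 (u : ℚ) : ℚ :=
  407808*u^12 - 3677184*u^11 - 27177984*u^10 + 211783680*u^9 - 98979840*u^8 - 95993856*u^7 + 2701541376*u^6 - 23836557312*u^5 + 22960668672*u^4 - 127161335808*u^3 + 65965916160*u^2 - 191386091520*u + 65229815808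

/-- Coefficient of `w^6` in the cofactor. -/
def keyQ6 (u : ℚ) : ℚ :=
  -564480*u^12 + 6580224*u^11 + 14902272*u^10 - 170975232*u^9 + 492244992*u^8 - 2283503616*u^7 + 4159881216*u^6 - 6777077760*u^5 + 14368112640*u^4 + 3199205376*u^3 + 18742247424*u^2 + 25593643008*u + 2868903936

/-- Coefficient of `w^7` in the cofactor. -/
def keyQ7 (u : ℚ) : ℚ :=
  470016*u^12 - 7741440*u^11 + 6193152*u^10 + 20348928*u^9 - 223838208*u^8 + 1564213248*u^7 - 3970695168*u^6 + 11862540288*u^5 - 24001118208*u^4 + 34936455168*u^3 - 63757615104*u^2 + 36918263808*u - 63417876480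

/-- Coefficient of `w^8` in the cofactor. -/
def keyQ8 (u : ℚ) : ℚ :=
  -145152*u^12 + 5750784*u^11 - 13049856*u^10 + 72548352*u^9 - 155492352*u^8 + 240648192*u^7 - 585695232*u^6 - 396361728*u^5 + 104398848*u^4 - 3510632448*u^3 + 4954521600*u^2 - 4982833152*u + 7700742144

/-- Coefficient of `w^9` in the cofactor. -/
def keyQ9 (u : ℚ) : ℚ :=
  -129024*u^12 - 2433024*u^11 + 4202496*u^10 - 48660480*u^9 + 115015680*u^8 - 389283840*u^7 + 1002700800*u^6 - 1557135360*u^5 + 4175953920*u^4 - 3114270720*u^3 + 8550088704*u^2 - 2491416576*u + 6945767424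

/-- Coefficient of `w^10` in the cofactor. -/
def keyQ10 (u : ℚ) : ℚ :=
  165888*u^12 + 442368*u^11 + 2433024*u^10 + 8847360*u^9 + 8847360*u^8 + 70778880*u^7 - 35389440*u^6 + 283115520*u^5 - 353894400*u^4 + 566231040*u^3 - 962592768*u^2 + 452984832*u - 905969664

/-- Coefficient of `w^11` in the cofactor. -/
def keyQ11 (u : ℚ) : ℚ :=
  -73728*u^12 - 1769472*u^10 - 17694720*u^8 - 94371840*u^6 - 283115520*u^4 - 452984832*u^2 - 301989888

/-- Coefficient of `w^12` in the cofactor. -/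
def keyQ12 (u : ℚ) : ℚ :=
  12288*u^12 + 294912*u^10 + 2949120*u^8 + 15728640*u^6 + 47185920*u^4 + 75497472*u^2 + 50331648

/-- The cofactor. -/
def keyQ (u w : ℚ) : ℚ :=
  keyQ0 u
    + keyQ1 u * w ^ 1
    + keyQ2 u * w ^ 2
    + keyQ3 u * w ^ 3
    + keyQ4 u * w ^ 4
    + keyQ5 u * w ^ 5
    + keyQ6 u * w ^ 6
    + keyQ7 u * w ^ 7
    + keyQ8 u * w ^ 8
    + keyQ9 u * w ^ 9
    + keyQ10 u * w ^ 10
    + keyQ11 u * w ^ 11
    + keyQ12 u * w ^ 12

set_option maxHeartbeats 4000000 in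
theorem keyQ_mul_keyPsi (u w : ℚ) :
    keyQ u w * keyPsi u w =
      (keyR u w - 144) * keyR u w ^ 5 * 9 * keyN u w ^ 2
        + 5 * 144 ^ 3 * 3 * keyN u w * keyM u w * keyR u w ^ 3
        - 144 ^ 5 * (144 + 9 * keyR u w) * keyM u w ^ 2 := by
  unfold keyQ keyPsi keyR keyN keyM keyD keyC keyE keyQ0 keyQ1 keyQ2 keyQ3 keyQ4 keyQ5 keyQ6 keyQ7 keyQ8 keyQ9 keyQ10 keyQ11 keyQ12
  ring

end Fermat.Agent.S51
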