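import Mathlib
import Fermat.Agent.S51.KeyPoly

/-!
# S51, Part M: the modular-curve algebra

Pure `ℚ`-algebra.  From the `X`-coordinate `X3` of a Galois-stable line in `E[3]` and the
symmetric functions `sg`, `pi` of the two `X`-coordinates of a Galois-stable line in `E[5]` of a
curve `Y² = X³ + A X + B`, we produce a rational point on the modular curve of level 15, in its
Weierstrass model `y² = x (x + 9) (x - 16)`; the `2`-isogenous curve `Y² = X (X - 1) (X - 81)`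
has only its `2`-torsion as rational points (hypothesis `hdesc`), which leaves four `j`-invariants,
none of them semistable at `5`.
-/

namespace Fermat.Agent.S51

/-! ### Step 6: rational points of `y² = x (x + 9) (x - 16)` -/

/-- Rational points on `y² = x (x + 9) (x - 16)` with `x ≠ 0`, given that the `2`-isogenous curve
`Y² = X (X - 1) (X - 81)` only has the points with `Y = 0`. -/
theorem e15_points (hdesc : ∀ X Y : ℚ, Y ^ 2 = X * (X - 1) * (X - 81) → Y = 0)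
    (x y : ℚ) (h : y ^ 2 = x * (x + 9) * (x - 16)) (hx : x ≠ 0) :
    x = -9 ∨ x = 16 ∨ x = 36 ∨ x = -4 := by
  by_cases h16 : x = 16
  · exact Or.inr (Or.inl h16)
  have hne : x - 16 ≠ 0 := sub_ne_zero.mpr h16
  have hY : (y * (36 - x) * (x + 4) / (x - 16) ^ 2) ^ 2 =
      (x * (x + 9) / (x - 16)) * (x * (x + 9) / (x - 16) - 1) *
        (x * (x + 9) / (x - 16) - 81) := by
    field_simp
    linear_combination ((36 - x) ^ 2 * (x + 4) ^ 2) * h
  have h0 := hdesc _ _ hY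
  have h1 : y * (36 - x) * (x + 4) = 0 := by
    have := div_eq_zero_iff.mp h0
    rcases this with h | h
    · exact h
    · exact absurd (pow_eq_zero_iff (n := 2) (by norm_num) |>.mp h) hne
  rcases mul_eq_zero.mp h1 with h2 | h2
  · rcases mul_eq_zero.mp h2 with h3 | h3
    · -- y = 0
      rw [h3] at h
      have : x * (x + 9) * (x - 16) = 0 := by linear_combination -h
      rcases mul_eq_zero.mp this with h4 | h4
      · rcases mul_eq_zero.mp h4 with h5 | h5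
        · exact absurd h5 hx
        · exact Or.inl (by linear_combination h5)
      · exact absurd h4 hne
    · exact Or.inr (Or.inr (Or.inl (by linear_combination -h3)))
  · exact Or.inr (Or.inr (Or.inr (by linear_combination h2)))

/-! ### Step 7: the key relation at the four values of `rho` -/

/-- The key relation `(1 - rho) h² - 5 rho³ h - rho⁵ (rho + 9) = 0` determines `h` at the four
relevant values of `rho`. -/
theorem h_of_rho (rho h : ℚ) (hh : h ≠ 0)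
    (hstar : (1 - rho) * h ^ 2 - 5 * rho ^ 3 * h - rho ^ 5 * (rho + 9) = 0)
    (hrho : rho = 9 / 4 ∨ rho = -4 ∨ rho = -9 ∨ rho = 1) :
    h = -729 / 32 ∨ h = -32 ∨ h = -729 / 2 ∨ h = -2 := by
  rcases hrho with rfl | rfl | rfl | rfl
  · left
    have : (32 * h + 729) ^ 2 = 0 := by linear_combination (-4096 / 5) * hstar
    have := pow_eq_zero_iff (n := 2) (by norm_num) |>.mp this
    linear_combination (1 / 32) * this
  · right; left
    have : (h + 32) ^ 2 = 0 := by linear_combination (1 / 5) * hstar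
    have := pow_eq_zero_iff (n := 2) (by norm_num) |>.mp this
    linear_combination this
  · right; right; left
    have : h * (2 * h + 729) = 0 := by linear_combination (1 / 5) * hstar
    rcases mul_eq_zero.mp this with h1 | h1
    · exact absurd h1 hh
    · linear_combination (1 / 2) * h1
  · right; right; right
    linear_combination (-1 / 5) * hstar

/-! ### Step 0: the discriminant and `c4 ≠ 0` -/

theorem c4_ne_zero_of_semistable (c4 c6 D : ℤ) (hrel : 1728 * D = c4 ^ 3 - c6 ^ 2)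
    (hss : ∀ p : ℕ, p.Prime → (p : ℤ) ∣ D → ¬ (p : ℤ) ∣ c4) : c4 ≠ 0 := by
  rintro rfl
  have hnat : D.natAbs = 1 := by
    by_contra hne
    obtain ⟨p, hp, hpd⟩ := Nat.exists_prime_and_dvd hne
    exact hss p hp (Int.natCast_dvd.mpr hpd) (dvd_zero _)
  have hc6 : c6 ^ 2 = -1728 * D := by linear_combination hrel
  rcases Int.natAbs_eq D with h | h <;> rw [hnat] at h
  · rw [h] at hc6
    norm_num at hc6
    nlinarith [sq_nonneg c6]
  · rw [h] at hc6
    norm_num at hc6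
    have h2 : (c6.natAbs : ℤ) ^ 2 = 1728 := by
      rw [Int.natAbs_sq]; linear_combination hc6
    have h3 : c6.natAbs ^ 2 = 1728 := by exact_mod_cast h2
    have h4 : c6.natAbs ≤ 41 ∨ 42 ≤ c6.natAbs := by omega
    rcases h4 with h4 | h4
    · have := Nat.pow_le_pow_left h4 2
      omega
    · have := Nat.pow_le_pow_left h4 2
      omega

/-! ### Step 8: the four `j`-invariants are not semistable at `5` -/

theorem five_dvd_of_eq (c4 D a b : ℤ) (h : a * c4 ^ 3 = b * D) (ha : ¬ (5 : ℤ) ∣ a)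
    (hb5 : (5 : ℤ) ∣ b) (hb : ¬ (125 : ℤ) ∣ b) : (5 : ℤ) ∣ c4 ∧ (5 : ℤ) ∣ D := by
  have hp : Prime (5 : ℤ) := by
    rw [Int.prime_iff_natAbs_prime]; norm_num
  have h1 : (5 : ℤ) ∣ a * c4 ^ 3 := by
    rw [h]; exact Dvd.dvd.mul_right hb5 D
  have h2 : (5 : ℤ) ∣ c4 := by
    rcases hp.dvd_or_dvd h1 with h3 | h3
    · exact absurd h3 ha
    · exact hp.dvd_of_dvd_pow h3
  refine ⟨h2, ?_⟩
  by_contra h5
  have hcop : IsCoprime (5 : ℤ) D := (Prime.coprime_iff_not_dvd hp).mpr h5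
  have hcop' : IsCoprime ((5 : ℤ) ^ 3) D := hcop.pow_left
  have h6 : ((5 : ℤ) ^ 3) ∣ b * D := by
    rw [← h]
    exact Dvd.dvd.mul_left (pow_dvd_pow_of_dvd h2 3) a
  have h7 : ((5 : ℤ) ^ 3) ∣ b := hcop'.dvd_of_dvd_mul_right h6
  exact hb (by norm_num at h7; exact h7)

theorem not_semistable_of_h (c4 D : ℤ) (hD : D ≠ 0) (hss5 : (5 : ℤ) ∣ D → ¬ (5 : ℤ) ∣ c4)
    (h : ℚ) (hh : h = -729 / 32 ∨ h = -32 ∨ h = -729 / 2 ∨ h = -2)
    (hj : (c4 : ℚ) ^ 3 / D * h = (h + 27) * (h + 3) ^ 3) : False := by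
  have hDq : (D : ℚ) ≠ 0 := by exact_mod_cast hD
  have key : ∀ a b : ℤ, (a : ℚ) * (c4 : ℚ) ^ 3 = b * D → ¬ (5 : ℤ) ∣ a → (5 : ℤ) ∣ b →
      ¬ (125 : ℤ) ∣ b → False := by
    intro a b hab ha hb5 hb
    have hab' : a * c4 ^ 3 = b * D := by exact_mod_cast hab
    obtain ⟨h1, h2⟩ := five_dvd_of_eq c4 D a b hab' ha hb5 hb
    exact hss5 h2 h1
  rcases hh with rfl | rfl | rfl | rfl
  · refine key 32768 46969655 ?_ (by norm_num) (by norm_num) (by norm_num)
    field_simp at hj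
    push_cast
    linear_combination (-1 / 729) * hj
  · refine key 32 (-121945) ?_ (by norm_num) (by norm_num) (by norm_num)
    field_simp at hj
    push_cast
    linear_combination (-1) * hj
  · refine key 8 (-349938025) ?_ (by norm_num) (by norm_num) (by norm_num)
    field_simp at hj
    push_cast
    linear_combination (-1 / 729) * hj
  · refine key 2 (-25) ?_ (by norm_num) (by norm_num) (by norm_num)
    field_simp at hj
    push_cast
    linear_combination (-1) * hj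

/-! ### Step 5: the `j`-relation for the 3-isogeny parameter -/

theorem j_relation (A B X3 : ℚ)
    (hpsi : 3 * X3 ^ 4 + 6 * A * X3 ^ 2 + 12 * B * X3 - A ^ 2 = 0) :
    (X3 ^ 2 + 3 * A) * (3 * X3 ^ 2 + A) ^ 3 = 16 * X3 ^ 2 * (4 * A ^ 3 + 27 * B ^ 2) := by
  linear_combination (-3 * (12 * X3 * B + (A ^ 2 - 6 * A * X3 ^ 2 - 3 * X3 ^ 4))) * hpsi

theorem j_relation' (A B X3 : ℚ) (hm : 3 * X3 ^ 2 + A ≠ 0)
    (hdisc_ne : 4 * A ^ 3 + 27 * B ^ 2 ≠ 0)
    (hkey5 : (X3 ^ 2 + 3 * A) * (3 * X3 ^ 2 + A) ^ 3 = 16 * X3 ^ 2 * (4 * A ^ 3 + 27 * B ^ 2)) :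
    (-48 * A) ^ 3 / (-16 * (4 * A ^ 3 + 27 * B ^ 2))
        * (-9 * (X3 ^ 2 + 3 * A) / (3 * X3 ^ 2 + A)) =
      (-9 * (X3 ^ 2 + 3 * A) / (3 * X3 ^ 2 + A) + 27)
        * (-9 * (X3 ^ 2 + 3 * A) / (3 * X3 ^ 2 + A) + 3) ^ 3 := by
  have h27 : -9 * (X3 ^ 2 + 3 * A) / (3 * X3 ^ 2 + A) + 27 = 72 * X3 ^ 2 / (3 * X3 ^ 2 + A) := by
    rw [div_add' _ _ _ hm]; congr 1; ring
  have h3 : -9 * (X3 ^ 2 + 3 * A) / (3 * X3 ^ 2 + A) + 3 = -24 * A / (3 * X3 ^ 2 + A) := by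
    rw [div_add' _ _ _ hm]; congr 1; ring
  rw [h27, h3]
  generalize 3 * X3 ^ 2 + A = m at *
  generalize 4 * A ^ 3 + 27 * B ^ 2 = Dc at *
  field_simp
  linear_combination (-995328 * A ^ 3) * hkey5

/-! ### The main theorem of Part M -/

set_option maxHeartbeats 1000000 in
theorem partM_of_descent (hdesc : ∀ X Y : ℚ, Y ^ 2 = X * (X - 1) * (X - 81) → Y = 0)
    (c4 c6 D : ℤ) (hrel : 1728 * D = c4 ^ 3 - c6 ^ 2) (hD : D ≠ 0)
    (hss : ∀ p : ℕ, p.Prime → (p : ℤ) ∣ D → ¬ (p : ℤ) ∣ c4)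
    (A B X3 sg pi : ℚ) (hA : A = -(c4 : ℚ) / 48) (hB : B = -(c6 : ℚ) / 864)
    (hpsi : 3 * X3 ^ 4 + 6 * A * X3 ^ 2 + 12 * B * X3 - A ^ 2 = 0)
    (hR1 : A ^ 2 + 2 * A * (sg ^ 2 - pi) = sg ^ 4 - 5 * sg ^ 2 * pi - 5 * pi ^ 2)
    (hR2 : 12 * sg * B = sg ^ 4 - 8 * sg ^ 2 * pi + 10 * pi ^ 2 - 2 * A * sg ^ 2 - 4 * A * pi
      + 2 * A ^ 2)
    (hdel : sg ^ 2 - 4 * pi ≠ 0) (hR : X3 ^ 2 - sg * X3 + pi ≠ 0) : False := by
  -- Step 0
  have hc4 : c4 ≠ 0 := c4_ne_zero_of_semistable c4 c6 D hrel hss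
  have hDq : (D : ℚ) ≠ 0 := by exact_mod_cast hD
  have hrelq : (1728 : ℚ) * D = (c4 : ℚ) ^ 3 - (c6 : ℚ) ^ 2 := by exact_mod_cast hrel
  have hdisc : 4 * A ^ 3 + 27 * B ^ 2 = -(D : ℚ) / 16 := by
    rw [hA, hB]; linear_combination (1 / 27648 : ℚ) * hrelq
  have hdisc_ne : 4 * A ^ 3 + 27 * B ^ 2 ≠ 0 := by
    rw [hdisc]; exact div_ne_zero (neg_ne_zero.mpr hDq) (by norm_num)
  have hA0 : A ≠ 0 := by
    rw [hA]; exact div_ne_zero (neg_ne_zero.mpr (by exact_mod_cast hc4)) (by norm_num)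
  have hX3 : X3 ≠ 0 := by
    rintro rfl
    apply hA0
    have : A ^ 2 = 0 := by linear_combination -hpsi
    exact pow_eq_zero_iff (n := 2) (by norm_num) |>.mp this
  have hkey5 := j_relation A B X3 hpsi
  have hm : 3 * X3 ^ 2 + A ≠ 0 := by
    intro h0
    rw [h0] at hkey5
    have : 16 * X3 ^ 2 * (4 * A ^ 3 + 27 * B ^ 2) = 0 := by linear_combination -hkey5
    rcases mul_eq_zero.mp this with h1 | h1
    · have : X3 ^ 2 = 0 := by linear_combination (1 / 16 : ℚ) * h1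
      exact hX3 (pow_eq_zero_iff (n := 2) (by norm_num) |>.mp this)
    · exact hdisc_ne h1
  have hn : X3 ^ 2 + 3 * A ≠ 0 := by
    intro h0
    rw [h0] at hkey5
    have : 16 * X3 ^ 2 * (4 * A ^ 3 + 27 * B ^ 2) = 0 := by linear_combination -hkey5
    rcases mul_eq_zero.mp this with h1 | h1
    · have : X3 ^ 2 = 0 := by linear_combination (1 / 16 : ℚ) * h1
      exact hX3 (pow_eq_zero_iff (n := 2) (by norm_num) |>.mp this)
    · exact hdisc_ne h1
  -- Step 1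
  have hsg : sg ≠ 0 := by
    rintro rfl
    apply hdel
    have h1 : (A - pi) ^ 2 + 4 * pi ^ 2 = 0 := by linear_combination hR1
    have h2 : pi ^ 2 = 0 := by nlinarith [sq_nonneg (A - pi), sq_nonneg pi]
    have h3 : pi = 0 := pow_eq_zero_iff (n := 2) (by norm_num) |>.mp h2
    rw [h3]; norm_num
  -- Step 2
  obtain ⟨u, hu⟩ : ∃ u : ℚ, u * (sg ^ 2 - 4 * pi) = 4 * (A + sg ^ 2 - pi) :=
    ⟨4 * (A + sg ^ 2 - pi) / (sg ^ 2 - 4 * pi), by field_simp⟩
  have hd : u ^ 2 + 4 ≠ 0 := by positivity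
  have h1 : (sg ^ 2 - 4 * pi) * (u ^ 2 * (sg ^ 2 - 4 * pi) - 16 * (2 * sg ^ 2 + pi)) = 0 := by
    linear_combination (u * (sg ^ 2 - 4 * pi) + 4 * (A + sg ^ 2 - pi)) * hu + 16 * hR1
  have h2 : u ^ 2 * (sg ^ 2 - 4 * pi) = 16 * (2 * sg ^ 2 + pi) := by
    rcases mul_eq_zero.mp h1 with h | h
    · exact absurd h hdel
    · linear_combination h
  have hpi : 4 * (u ^ 2 + 4) * pi = sg ^ 2 * (u ^ 2 - 32) := by linear_combination -h2
  have hA' : 4 * (u ^ 2 + 4) * A = -3 * sg ^ 2 * (u ^ 2 - 12 * u + 16) := by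
    linear_combination -(u ^ 2 + 4) * hu + u * h2 + hpi
  have hB0 : 12 * sg * (4 * (u ^ 2 + 4)) * (4 * (u ^ 2 + 4) * B
      - sg ^ 3 * (u ^ 2 - 18 * u + 76)) = 0 := by
    linear_combination (4 * (u ^ 2 + 4)) ^ 2 * hR2
      + (-8 * sg ^ 2 * (4 * (u ^ 2 + 4)) + 10 * (4 * (u ^ 2 + 4) * pi + sg ^ 2 * (u ^ 2 - 32))
          - 4 * (-3 * sg ^ 2 * (u ^ 2 - 12 * u + 16))) * hpi
      + (-2 * sg ^ 2 * (4 * (u ^ 2 + 4)) - 4 * (4 * (u ^ 2 + 4) * pi)
          + 2 * (4 * (u ^ 2 + 4) * A + -3 * sg ^ 2 * (u ^ 2 - 12 * u + 16))) * hA'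
  have hB' : 4 * (u ^ 2 + 4) * B = sg ^ 3 * (u ^ 2 - 18 * u + 76) := by
    have h12 : 12 * sg * (4 * (u ^ 2 + 4)) ≠ 0 := by
      apply mul_ne_zero (mul_ne_zero (by norm_num) hsg) (mul_ne_zero (by norm_num) hd)
    rcases mul_eq_zero.mp hB0 with h | h
    · exact absurd h h12
    · linear_combination h
  -- Step 3
  obtain ⟨w, hw⟩ : ∃ w : ℚ, X3 = w * sg := ⟨X3 / sg, by field_simp⟩
  have hsg4 : sg ^ 4 ≠ 0 := pow_ne_zero 4 hsg
  have hsg2 : sg ^ 2 ≠ 0 := pow_ne_zero 2 hsg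
  have hPsi0 : sg ^ 4 * keyPsi u w = 0 := by
    unfold keyPsi keyD keyC keyE
    rw [hw] at hpsi
    linear_combination (16 * (u ^ 2 + 4) ^ 2) * hpsi
      - (6 * (4 * (u ^ 2 + 4)) * (w * sg) ^ 2
          - (4 * (u ^ 2 + 4) * A + -3 * sg ^ 2 * (u ^ 2 - 12 * u + 16))) * hA'
      - (12 * (4 * (u ^ 2 + 4)) * (w * sg)) * hB'
  have hPsi : keyPsi u w = 0 := by
    rcases mul_eq_zero.mp hPsi0 with h | h
    · exact absurd h hsg4
    · exact h
  -- Step 4
  have hRR : sg ^ 2 * keyR u w = 4 * (u ^ 2 + 4) * (X3 ^ 2 - sg * X3 + pi) := by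
    unfold keyR keyD
    rw [hw]
    linear_combination -hpi
  have hMM : 3 * sg ^ 2 * keyM u w = 4 * (u ^ 2 + 4) * (3 * X3 ^ 2 + A) := by
    unfold keyM keyD keyC
    rw [hw]
    linear_combination -hA'
  have hNN : sg ^ 2 * keyN u w = 4 * (u ^ 2 + 4) * (X3 ^ 2 + 3 * A) := by
    unfold keyN keyD keyC
    rw [hw]
    linear_combination -3 * hA'
  have hd4 : 4 * (u ^ 2 + 4) ≠ 0 := mul_ne_zero (by norm_num) hd
  have hRne : keyR u w ≠ 0 := by
    intro h0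
    rw [h0, mul_zero] at hRR
    exact (mul_ne_zero hd4 hR) hRR.symm
  have hMne : keyM u w ≠ 0 := by
    intro h0
    rw [h0, mul_zero] at hMM
    exact (mul_ne_zero hd4 hm) hMM.symm
  have hNne : keyN u w ≠ 0 := by
    intro h0
    rw [h0, mul_zero] at hNN
    exact (mul_ne_zero hd4 hn) hNN.symm
  have hnum := keyQ_mul_keyPsi u w
  rw [hPsi, mul_zero] at hnum
  generalize keyR u w = R at hRR hRne hnum
  generalize keyM u w = M at hMM hMne hnum
  generalize keyN u w = N at hNN hNne hnum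
  set rho : ℚ := 144 / R with hrho
  set h : ℚ := -3 * N / M with hh
  have hrho0 : rho ≠ 0 := div_ne_zero (by norm_num) hRne
  have hh0 : h ≠ 0 := div_ne_zero (mul_ne_zero (by norm_num) hNne) hMne
  have hstar : (1 - rho) * h ^ 2 - 5 * rho ^ 3 * h - rho ^ 5 * (rho + 9) = 0 := by
    have h3 : ((1 - rho) * h ^ 2 - 5 * rho ^ 3 * h - rho ^ 5 * (rho + 9)) * (R ^ 6 * M ^ 2) = 0 := by
      rw [hnum, hrho, hh]
      field_simp
      ring
    rcases mul_eq_zero.mp h3 with h4 | h4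
    · exact h4
    · exact absurd h4 (mul_ne_zero (pow_ne_zero 6 hRne) (pow_ne_zero 2 hMne))
  -- Step 6
  have hE15 : ((8 * (1 - rho) * h - 20 * rho ^ 3) / rho ^ 2) ^ 2 =
      (-4 * rho) * (-4 * rho + 9) * (-4 * rho - 16) := by
    field_simp
    linear_combination (64 * (1 - rho)) * hstar
  have hx0 : -4 * rho ≠ 0 := mul_ne_zero (by norm_num) hrho0
  have hpts := e15_points hdesc (-4 * rho) _ hE15 hx0
  have hrho4 : rho = 9 / 4 ∨ rho = -4 ∨ rho = -9 ∨ rho = 1 := by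
    rcases hpts with h5 | h5 | h5 | h5
    · left; linear_combination (-1 / 4 : ℚ) * h5
    · right; left; linear_combination (-1 / 4 : ℚ) * h5
    · right; right; left; linear_combination (-1 / 4 : ℚ) * h5
    · right; right; right; linear_combination (-1 / 4 : ℚ) * h5
  have hh4 := h_of_rho rho h hh0 hstar hrho4
  -- Step 5 and 8
  have hh_eq : h = -9 * (X3 ^ 2 + 3 * A) / (3 * X3 ^ 2 + A) := by
    rw [hh]
    rw [div_eq_div_iff hMne hm]
    have e1 : sg ^ 2 * (-3 * N * (3 * X3 ^ 2 + A)) = sg ^ 2 * (-9 * (X3 ^ 2 + 3 * A) * M) := by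
      linear_combination (-3 * (3 * X3 ^ 2 + A)) * hNN + (3 * (X3 ^ 2 + 3 * A)) * hMM
    exact mul_left_cancel₀ hsg2 e1
  have hj : (c4 : ℚ) ^ 3 / D * h = (h + 27) * (h + 3) ^ 3 := by
    have hc4A : (c4 : ℚ) = -48 * A := by rw [hA]; ring
    have hDA : (D : ℚ) = -16 * (4 * A ^ 3 + 27 * B ^ 2) := by rw [hdisc]; ring
    rw [hh_eq, hc4A, hDA]
    exact j_relation' A B X3 hm hdisc_ne hkey5
  have hss5 : (5 : ℤ) ∣ D → ¬ (5 : ℤ) ∣ c4 := by
    have := hss 5 (by norm_num)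
    simpa using this
  exact not_semistable_of_h c4 D hD hss5 h hh4 hj

end Fermat.Agent.S51
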