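import Fermat.Agent.S51.Line

/-!
# S51 Part T: if both `E[3]` and `E[5]` are reducible, we get rational data
`X₃, σ, π` satisfying the modular relations.
-/

set_option autoImplicit false
set_option linter.unusedSectionVars false
set_option linter.unusedVariables false
set_option linter.style.haveILetI false

namespace Fermat.Agent.S51

open WeierstrassCurve WeierstrassCurve.Affine WeierstrassCurve.Affine.Point

section Algebra

variable {F : Type*} [Field F]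

lemma R1_of_dup (A B X₁ X₂ : F) (h1 : X₂ * fpol A B X₁ = ppol A B X₁)
    (h2 : X₁ * fpol A B X₂ = ppol A B X₂) (hne : X₁ ≠ X₂) :
    A ^ 2 + 2 * A * ((X₁ + X₂) ^ 2 - X₁ * X₂)
      = (X₁ + X₂) ^ 4 - 5 * (X₁ + X₂) ^ 2 * (X₁ * X₂) - 5 * (X₁ * X₂) ^ 2 := by
  have key : (X₂ - X₁) * (A ^ 2 + 2 * A * ((X₁ + X₂) ^ 2 - X₁ * X₂)
      - ((X₁ + X₂) ^ 4 - 5 * (X₁ + X₂) ^ 2 * (X₁ * X₂) - 5 * (X₁ * X₂) ^ 2)) = 0 := by
    unfold fpol ppol at h1 h2
    linear_combination (-(X₁ + 2 * X₂)) * h1 + (X₂ + 2 * X₁) * h2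
  have hne' : X₂ - X₁ ≠ 0 := sub_ne_zero.mpr (Ne.symm hne)
  exact sub_eq_zero.mp ((mul_eq_zero.mp key).resolve_left hne')

lemma R2_of_dup (A B X₁ X₂ : F) (h1 : X₂ * fpol A B X₁ = ppol A B X₁)
    (h2 : X₁ * fpol A B X₂ = ppol A B X₂) :
    12 * (X₁ + X₂) * B
      = (X₁ + X₂) ^ 4 - 8 * (X₁ + X₂) ^ 2 * (X₁ * X₂) + 10 * (X₁ * X₂) ^ 2
        - 2 * A * (X₁ + X₂) ^ 2 - 4 * A * (X₁ * X₂) + 2 * A ^ 2 := by
  unfold fpol ppol at h1 h2
  linear_combination h1 + h2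

end Algebra

section Torsion

variable {F : Type*} [Field F] [CharZero F] [DecidableEq F] (W : WeierstrassCurve F)

lemma Xp_nsmul_three {P : W.toAffine.Point} (h3 : 3 • P = 0) (c : ℕ) (hc : c • P ≠ 0) :
    Xp W (c • P) = Xp W P := by
  have hmod : c • P = (c % 3) • P := by
    conv_lhs => rw [← Nat.div_add_mod' c 3]
    rw [add_smul, mul_smul, h3, smul_zero, zero_add]
  rw [hmod] at hc ⊢
  have hlt : c % 3 < 3 := Nat.mod_lt _ (by norm_num)
  interval_cases (c % 3)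
  · simp at hc
  · simp
  · have : 2 • P = -P := by
      have : 2 • P + P = 0 := by rw [← h3]; abel
      exact eq_neg_of_add_eq_zero_left this
    rw [this, Xp_neg]

lemma Xp_nsmul_five {P : W.toAffine.Point} (h5 : 5 • P = 0) (c : ℕ) (hc : c • P ≠ 0) :
    (Xp W (c • P) = Xp W P ∧ Xp W (c • (P + P)) = Xp W (P + P)) ∨
    (Xp W (c • P) = Xp W (P + P) ∧ Xp W (c • (P + P)) = Xp W P) := by
  have hmod : c • P = (c % 5) • P := by
    conv_lhs => rw [← Nat.div_add_mod' c 5]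
    rw [add_smul, mul_smul, h5, smul_zero, zero_add]
  have hmod2 : c • (P + P) = (c % 5) • (P + P) := by
    rw [smul_add, smul_add, hmod]
  rw [hmod] at hc
  rw [hmod, hmod2]
  have hlt : c % 5 < 5 := Nat.mod_lt _ (by norm_num)
  have e4 : 4 • P = -P := by
    have : 4 • P + P = 0 := by rw [← h5]; abel
    exact eq_neg_of_add_eq_zero_left this
  have e3 : 3 • P = -(P + P) := by
    have : 3 • P + (P + P) = 0 := by rw [← h5]; abel
    exact eq_neg_of_add_eq_zero_left this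
  interval_cases (c % 5)
  · simp at hc
  · left; simp
  · right
    refine ⟨by rw [two_smul], ?_⟩
    have : 2 • (P + P) = 4 • P := by abel
    rw [this, e4, Xp_neg]
  · right
    refine ⟨by rw [e3, Xp_neg], ?_⟩
    have : 3 • (P + P) = 5 • P + P := by abel
    rw [this, h5, zero_add]
  · left
    refine ⟨by rw [e4, Xp_neg], ?_⟩
    have : 4 • (P + P) = 5 • P + 3 • P := by abel
    rw [this, h5, zero_add, e3, Xp_neg]

end Torsion

noncomputable section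

variable (E : WeierstrassCurve ℚ)

lemma map_psi3 (A B X : ℚ) :
    algebraMap ℚ Qbar (psi3 A B X)
      = psi3 (algebraMap ℚ Qbar A) (algebraMap ℚ Qbar B) (algebraMap ℚ Qbar X) := by
  simp [psi3]

/-- **Part T.** If neither `E[3]` nor `E[5]` is an irreducible Galois module, there are rational
numbers `X₃, σ, π` satisfying the relations of the modular curve `X₀(15)`. -/
theorem partT (hΔ : E.Δ ≠ 0)
    (h3 : ¬ GaloisRepIsIrreducible (K := Qbar) ℚ E 3)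
    (h5 : ¬ GaloisRepIsIrreducible (K := Qbar) ℚ E 5) :
    ∃ X3 sg pi : ℚ,
      3 * X3 ^ 4 + 6 * cA E * X3 ^ 2 + 12 * cB E * X3 - cA E ^ 2 = 0 ∧
      cA E ^ 2 + 2 * cA E * (sg ^ 2 - pi) = sg ^ 4 - 5 * sg ^ 2 * pi - 5 * pi ^ 2 ∧
      12 * sg * cB E = sg ^ 4 - 8 * sg ^ 2 * pi + 10 * pi ^ 2 - 2 * cA E * sg ^ 2
          - 4 * cA E * pi + 2 * cA E ^ 2 ∧
      sg ^ 2 - 4 * pi ≠ 0 ∧ X3 ^ 2 - sg * X3 + pi ≠ 0 := by
  have hΔK := EK_Δ_ne_zero E hΔ
  have hinj : Function.Injective (algebraMap ℚ Qbar) := (algebraMap ℚ Qbar).injective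
  -- the 3-torsion line
  haveI : Fact (Nat.Prime 3) := ⟨by norm_num⟩
  haveI : Fact (Nat.Prime 5) := ⟨by norm_num⟩
  obtain ⟨P3, hP3, h3P3, hσ3⟩ := exists_stable_point E 3 (torsSet_three_finite (EK E)).1
    (lt_of_le_of_lt (torsSet_three_finite (EK E)).2 (by norm_num)) h3
    (exists_three_torsion (EK E) hΔK)
  obtain ⟨P5, hP5, h5P5, hσ5⟩ := exists_stable_point E 5 (torsSet_five_finite (EK E)).1
    (lt_of_le_of_lt (torsSet_five_finite (EK E)).2 (by norm_num)) h5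
    (exists_five_torsion (EK E) hΔK)
  -- rationality of X₃
  have hX3fix : ∀ σ : Qbar ≃ₐ[ℚ] Qbar, σ (Xp (EK E) P3) = Xp (EK E) P3 := by
    intro σ
    obtain ⟨c, hc⟩ := hσ3 σ
    rw [← Xp_smul, hc]
    apply Xp_nsmul_three (EK E) h3P3
    rw [← hc]
    exact fun h => hP3 ((smul_eq_zero_iff_eq σ).mp h)
  obtain ⟨X3, hX3⟩ := rational_of_fixed _ hX3fix
  -- rationality of σ and π
  have hfix5 : ∀ σ : Qbar ≃ₐ[ℚ] Qbar,
      (σ (Xp (EK E) P5) = Xp (EK E) P5 ∧ σ (Xp (EK E) (P5 + P5)) = Xp (EK E) (P5 + P5)) ∨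
      (σ (Xp (EK E) P5) = Xp (EK E) (P5 + P5) ∧ σ (Xp (EK E) (P5 + P5)) = Xp (EK E) P5) := by
    intro σ
    obtain ⟨c, hc⟩ := hσ5 σ
    have hc2 : σ • (P5 + P5) = c • (P5 + P5) := by
      have e : σ • (P5 + P5) = σ • P5 + σ • P5 := (Point.map σ.toAlgHom).map_add P5 P5
      rw [e, hc, nsmul_add]
    rw [← Xp_smul, ← Xp_smul, hc, hc2]
    apply Xp_nsmul_five (EK E) h5P5
    rw [← hc]
    exact fun h => hP5 ((smul_eq_zero_iff_eq σ).mp h)
  obtain ⟨sg, hsg⟩ := rational_of_fixed (Xp (EK E) P5 + Xp (EK E) (P5 + P5)) (by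
    intro σ
    rcases hfix5 σ with ⟨h1, h2⟩ | ⟨h1, h2⟩
    · rw [map_add, h1, h2]
    · rw [map_add, h1, h2, add_comm])
  obtain ⟨pi, hpi⟩ := rational_of_fixed (Xp (EK E) P5 * Xp (EK E) (P5 + P5)) (by
    intro σ
    rcases hfix5 σ with ⟨h1, h2⟩ | ⟨h1, h2⟩
    · rw [map_mul, h1, h2]
    · rw [map_mul, h1, h2, mul_comm])
  -- the relations over ℚ̄
  obtain ⟨hψ3, hf3⟩ := three_torsion_data (EK E) hP3 h3P3
  obtain ⟨hf1, hf2, h12, h21, hne⟩ := five_torsion_data (EK E) hP5 h5P5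
  rw [EK_cA, EK_cB] at hψ3 hf3 hf1 hf2 h12 h21
  set X₁ := Xp (EK E) P5 with hX₁
  set X₂ := Xp (EK E) (P5 + P5) with hX₂
  have hR1 := R1_of_dup _ _ X₁ X₂ h12 h21 hne
  have hR2 := R2_of_dup _ _ X₁ X₂ h12 h21
  rw [← hsg, ← hpi] at hR1 hR2
  rw [← hX3] at hψ3
  refine ⟨X3, sg, pi, ?_, ?_, ?_, ?_, ?_⟩
  · apply hinj
    rw [← map_psi3] at hψ3
    rw [_root_.map_zero, ← hψ3]
    unfold psi3; rfl
  · apply hinj
    simp only [map_add, map_sub, map_mul, map_pow, map_ofNat]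
    exact hR1
  · apply hinj
    simp only [map_add, map_sub, map_mul, map_pow, map_ofNat]
    exact hR2
  · intro h
    have h' := congrArg (algebraMap ℚ Qbar) h
    simp only [map_sub, map_mul, map_pow, map_ofNat, _root_.map_zero] at h'
    rw [hsg, hpi] at h'
    apply hne
    have : (X₁ - X₂) ^ 2 = 0 := by linear_combination h'
    exact sub_eq_zero.mp (pow_eq_zero_iff (by norm_num) |>.mp this)
  · intro h
    have h' := congrArg (algebraMap ℚ Qbar) h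
    simp only [map_add, map_sub, map_mul, map_pow, _root_.map_zero] at h'
    rw [hsg, hpi, hX3] at h'
    have hprod : (Xp (EK E) P3 - X₁) * (Xp (EK E) P3 - X₂) = 0 := by linear_combination h'
    rw [hX3] at hψ3
    rcases mul_eq_zero.mp hprod with h0 | h0
    · -- X₃ = X₁ : ψ₃(X₁) ≠ 0
      have e : Xp (EK E) P3 = X₁ := sub_eq_zero.mp h0
      rw [e, psi3_eq, ← h12, ← sub_mul] at hψ3
      exact (mul_ne_zero (sub_ne_zero.mpr hne) hf1) hψ3
    · have e : Xp (EK E) P3 = X₂ := sub_eq_zero.mp h0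
      rw [e, psi3_eq, ← h21, ← sub_mul] at hψ3
      exact (mul_ne_zero (sub_ne_zero.mpr (Ne.symm hne)) hf2) hψ3

end

end Fermat.Agent.S51
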