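import Fermat.Agent.S51.Points

/-!
# S51 helper: counting 3- and 5-torsion points, existence over algebraically closed fields
-/

set_option autoImplicit false
set_option linter.unusedSectionVars false
set_option linter.unusedVariables false

namespace Fermat.Agent.S51

open WeierstrassCurve WeierstrassCurve.Affine Polynomial

variable {F : Type*} [Field F] [CharZero F] [DecidableEq F] (W : WeierstrassCurve F)

/-- `ψ₃` as a polynomial -/
noncomputable def psi3P (A B : F) : F[X] :=
  C 3 * X ^ 4 + C (6 * A) * X ^ 2 + C (12 * B) * X - C (A ^ 2)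

/-- `ψ₅` as a polynomial -/
noncomputable def psi5P (A B : F) : F[X] :=
  C 5 * X ^ 12 + C (62 * A) * X ^ 10 + C (380 * B) * X ^ 9 - C (105 * A ^ 2) * X ^ 8
    + C (240 * A * B) * X ^ 7
    + C (-300 * A ^ 3 - 240 * B ^ 2) * X ^ 6 - C (696 * A ^ 2 * B) * X ^ 5
    + C (-125 * A ^ 4 - 1920 * A * B ^ 2) * X ^ 4 + C (-80 * A ^ 3 * B - 1600 * B ^ 3) * X ^ 3
    + C (-50 * A ^ 5 - 240 * A ^ 2 * B ^ 2) * X ^ 2 + C (-100 * A ^ 4 * B - 640 * A * B ^ 3) * X
    + C (A ^ 6 - 32 * A ^ 3 * B ^ 2 - 256 * B ^ 4)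

lemma eval_psi3P (A B x : F) : (psi3P A B).eval x = psi3 A B x := by
  simp [psi3P, psi3]

lemma eval_psi5P (A B x : F) : (psi5P A B).eval x = psi5 A B x := by
  simp [psi5P, psi5]

lemma natDegree_psi3P (A B : F) : (psi3P A B).natDegree = 4 := by
  unfold psi3P
  compute_degree!

lemma natDegree_psi5P (A B : F) : (psi5P A B).natDegree = 12 := by
  unfold psi5P
  compute_degree!

lemma psi3P_ne_zero (A B : F) : psi3P A B ≠ 0 := by
  intro h
  have := natDegree_psi3P A B
  rw [h] at this
  simp at this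

lemma psi5P_ne_zero (A B : F) : psi5P A B ≠ 0 := by
  intro h
  have := natDegree_psi5P A B
  rw [h] at this
  simp at this

/-- A set of nonzero points whose `X`-coordinates lie in a finite set is finite, of size at most
twice the size of that set. -/
lemma finite_of_Xp_mem (R : Finset F) (S : Set W.toAffine.Point)
    (hS : ∀ P ∈ S, P ≠ 0 ∧ Xp W P ∈ R) : S.Finite ∧ S.ncard ≤ 2 * R.card := by
  classical
  have hfin : S.Finite := by
    have h1 : ((Xp W) ⁻¹' (R : Set F)).Finite := by
      apply Set.Finite.preimage' R.finite_toSet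
      intro b _
      by_cases hb : ∃ P : W.toAffine.Point, P ≠ 0 ∧ Xp W P = b
      · obtain ⟨P₀, hP₀, hXP₀⟩ := hb
        apply Set.Finite.subset (Set.toFinite ({0, P₀, -P₀} : Set W.toAffine.Point))
        intro Q hQ
        simp only [Set.mem_preimage, Set.mem_singleton_iff] at hQ
        by_cases hQ0 : Q = 0
        · simp [hQ0]
        · rcases eq_or_eq_neg_of_Xp_eq W hQ0 hP₀ (hQ.trans hXP₀.symm) with h | h <;> simp [h]
      · apply Set.Finite.subset (Set.toFinite ({0} : Set W.toAffine.Point))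
        intro Q hQ
        simp only [Set.mem_preimage, Set.mem_singleton_iff] at hQ
        by_contra hQ0
        exact hb ⟨Q, hQ0, hQ⟩
    exact h1.subset fun P hP => (hS P hP).2
  refine ⟨hfin, ?_⟩
  rw [Set.ncard_eq_toFinset_card S hfin]
  have hcard := Finset.card_le_mul_card_image (f := Xp W) hfin.toFinset 2 (by
    intro a _
    by_cases hne : (hfin.toFinset.filter fun x => Xp W x = a).Nonempty
    · obtain ⟨P₀, hP₀⟩ := hne
      rw [Finset.mem_filter, Set.Finite.mem_toFinset] at hP₀
      have hsub : (hfin.toFinset.filter fun x => Xp W x = a) ⊆ {P₀, -P₀} := by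
        intro Q hQ
        rw [Finset.mem_filter, Set.Finite.mem_toFinset] at hQ
        rcases eq_or_eq_neg_of_Xp_eq W (hS Q hQ.1).1 (hS P₀ hP₀.1).1 (hQ.2.trans hP₀.2.symm)
          with h | h <;> simp [h]
      exact (Finset.card_le_card hsub).trans Finset.card_le_two
    · rw [Finset.not_nonempty_iff_eq_empty] at hne
      rw [hne]; simp)
  refine hcard.trans (Nat.mul_le_mul_left 2 (Finset.card_le_card ?_))
  intro a ha
  rw [Finset.mem_image] at ha
  obtain ⟨P, hP, rfl⟩ := ha
  rw [Set.Finite.mem_toFinset] at hP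
  exact (hS P hP).2

/-- the set of `n`-torsion points -/
def torsSet (n : ℕ) : Set W.toAffine.Point := {P | n • P = 0}

lemma torsSet_three_finite : (torsSet W 3).Finite ∧ (torsSet W 3).ncard ≤ 9 := by
  classical
  set R := (psi3P (cA W) (cB W)).roots.toFinset with hR
  have hRcard : R.card ≤ 4 := by
    calc R.card ≤ Multiset.card (psi3P (cA W) (cB W)).roots := Multiset.toFinset_card_le _
      _ ≤ (psi3P (cA W) (cB W)).natDegree := card_roots' _
      _ = 4 := natDegree_psi3P _ _
  have key := finite_of_Xp_mem W R (torsSet W 3 \ {0}) (by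
    intro P hP
    refine ⟨fun h => hP.2 (by simp [h]), ?_⟩
    have hP0 : P ≠ 0 := fun h => hP.2 (by simp [h])
    have := (three_torsion_data W hP0 hP.1).1
    rw [hR, Multiset.mem_toFinset, mem_roots (psi3P_ne_zero _ _), IsRoot, eval_psi3P]
    exact this)
  have hsub : torsSet W 3 ⊆ insert 0 (torsSet W 3 \ {0}) := by
    intro P hP
    by_cases h : P = 0
    · simp [h]
    · exact Set.mem_insert_of_mem _ ⟨hP, by simpa using h⟩
  have hfin : (insert (0 : W.toAffine.Point) (torsSet W 3 \ {0})).Finite := key.1.insert 0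
  refine ⟨hfin.subset hsub, ?_⟩
  calc (torsSet W 3).ncard ≤ (insert (0 : W.toAffine.Point) (torsSet W 3 \ {0})).ncard :=
        Set.ncard_le_ncard hsub hfin
    _ ≤ (torsSet W 3 \ {0}).ncard + 1 := Set.ncard_insert_le _ _
    _ ≤ 2 * R.card + 1 := by omega
    _ ≤ 9 := by omega

lemma torsSet_five_finite : (torsSet W 5).Finite ∧ (torsSet W 5).ncard ≤ 25 := by
  classical
  set R := (psi5P (cA W) (cB W)).roots.toFinset with hR
  have hRcard : R.card ≤ 12 := by
    calc R.card ≤ Multiset.card (psi5P (cA W) (cB W)).roots := Multiset.toFinset_card_le _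
      _ ≤ (psi5P (cA W) (cB W)).natDegree := card_roots' _
      _ = 12 := natDegree_psi5P _ _
  have key := finite_of_Xp_mem W R (torsSet W 5 \ {0}) (by
    intro P hP
    refine ⟨fun h => hP.2 (by simp [h]), ?_⟩
    have hP0 : P ≠ 0 := fun h => hP.2 (by simp [h])
    obtain ⟨hf1, hf2, h12, h21, hne⟩ := five_torsion_data W hP0 hP.1
    rw [hR, Multiset.mem_toFinset, mem_roots (psi5P_ne_zero _ _), IsRoot, eval_psi5P]
    -- Φ = 0
    have hPhi := Phi_eq (cA W) (cB W) (Xp W P) (Xp W (P + P)) hf1 h12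
    rw [ident_I1, ← h21, sub_self, mul_zero] at hPhi
    have h3 : psi3 (cA W) (cB W) (Xp W P) ≠ 0 := by
      rw [psi3_eq, ← h12, ← sub_mul]
      exact mul_ne_zero (sub_ne_zero.mpr hne) hf1
    have := neg_eq_zero.mp hPhi
    exact (mul_eq_zero.mp this).resolve_left h3)
  have hsub : torsSet W 5 ⊆ insert 0 (torsSet W 5 \ {0}) := by
    intro P hP
    by_cases h : P = 0
    · simp [h]
    · exact Set.mem_insert_of_mem _ ⟨hP, by simpa using h⟩
  have hfin : (insert (0 : W.toAffine.Point) (torsSet W 5 \ {0})).Finite := key.1.insert 0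
  refine ⟨hfin.subset hsub, ?_⟩
  calc (torsSet W 5).ncard ≤ (insert (0 : W.toAffine.Point) (torsSet W 5 \ {0})).ncard :=
        Set.ncard_le_ncard hsub hfin
    _ ≤ (torsSet W 5 \ {0}).ncard + 1 := Set.ncard_insert_le _ _
    _ ≤ 2 * R.card + 1 := by omega
    _ ≤ 25 := by omega

end Fermat.Agent.S51
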