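import Mathlib

/-!
# S51 helper: duplication formula on x-coordinates (short Weierstrass normalisation)
-/

set_option autoImplicit false
set_option linter.unusedSectionVars false

namespace Fermat.Agent.S51

open WeierstrassCurve

variable {F : Type*} [Field F] [CharZero F]

/-- short-model coefficient `A = -c₄/48` -/
noncomputable def cA (W : WeierstrassCurve F) : F := -W.c₄ / 48
/-- short-model coefficient `B = -c₆/864` -/
noncomputable def cB (W : WeierstrassCurve F) : F := -W.c₆ / 864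
/-- shifted x-coordinate `X = x + b₂/12` -/
noncomputable def Xc (W : WeierstrassCurve F) (x : F) : F := x + W.b₂ / 12

/-- `f(X) = 4 (X³ + A X + B)` -/
def fpol (A B X : F) : F := 4 * (X ^ 3 + A * X + B)
/-- `p(X) = X⁴ - 2 A X² - 8 B X + A²` -/
def ppol (A B X : F) : F := X ^ 4 - 2 * A * X ^ 2 - 8 * B * X + A ^ 2
/-- `ψ₃(X) = 3X⁴ + 6AX² + 12BX - A²` -/
def psi3 (A B X : F) : F := 3 * X ^ 4 + 6 * A * X ^ 2 + 12 * B * X - A ^ 2

lemma psi3_eq (A B X : F) : psi3 A B X = X * fpol A B X - ppol A B X := by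
  unfold psi3 fpol ppol; ring

lemma sq_sub_negY (W : WeierstrassCurve F) {x y : F} (h : W.toAffine.Equation x y) :
    (y - W.toAffine.negY x y) ^ 2 = fpol (cA W) (cB W) (Xc W x) := by
  rw [Affine.equation_iff] at h
  simp only [Affine.negY, fpol, cA, cB, Xc, WeierstrassCurve.c₄, WeierstrassCurve.c₆,
    WeierstrassCurve.b₂, WeierstrassCurve.b₄, WeierstrassCurve.b₆]
  linear_combination (4 : F) * h

lemma dup_formula (W : WeierstrassCurve F) [DecidableEq F] {x y : F}
    (h : W.toAffine.Equation x y) (hy : y ≠ W.toAffine.negY x y) :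
    Xc W (W.toAffine.addX x x (W.toAffine.slope x x y y)) * fpol (cA W) (cB W) (Xc W x)
      = ppol (cA W) (cB W) (Xc W x) := by
  have hne : y - W.toAffine.negY x y ≠ 0 := sub_ne_zero.mpr hy
  rw [Affine.slope_of_Y_ne rfl hy, ← sq_sub_negY W h]
  rw [Affine.equation_iff] at h
  simp only [Affine.negY, Affine.addX, ppol, cA, cB, Xc, WeierstrassCurve.c₄, WeierstrassCurve.c₆,
    WeierstrassCurve.b₂, WeierstrassCurve.b₄, WeierstrassCurve.b₆] at hne ⊢
  have key : ∀ (L D : F), D ≠ 0 → ∀ R : F,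
      ((L ^ 2 + W.a₁ * L * D - (W.a₂ + x + x) * D ^ 2) + (W.a₁ ^ 2 + 4 * W.a₂) / 12 * D ^ 2) = R →
      ((L / D) ^ 2 + W.a₁ * (L / D) - W.a₂ - x - x + (W.a₁ ^ 2 + 4 * W.a₂) / 12) * D ^ 2 = R := by
    intro L D hD R hR
    rw [← hR]; field_simp; ring
  apply key _ _ hne
  linear_combination (-(8 : F) * x - (2 / 3 : F) * (W.a₁ ^ 2 + 4 * W.a₂)) * h

end Fermat.Agent.S51
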