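import Fermat.Agent.S51.Count

/-!
# S51 helper: existence of nonzero 3- and 5-torsion points over algebraically closed fields
-/

set_option autoImplicit false
set_option linter.unusedSectionVars false
set_option linter.unusedVariables false

namespace Fermat.Agent.S51

open WeierstrassCurve WeierstrassCurve.Affine Polynomial

variable {F : Type*} [Field F] [CharZero F] [DecidableEq F] (W : WeierstrassCurve F)

lemma disc_ne_zero (hΔ : W.Δ ≠ 0) : 4 * cA W ^ 3 + 27 * cB W ^ 2 ≠ 0 := by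
  rw [cAB_disc]
  exact div_ne_zero (neg_ne_zero.mpr hΔ) (by norm_num)

lemma exists_point_Xp [IsAlgClosed F] (hΔ : W.Δ ≠ 0) (X₀ : F) :
    ∃ P : W.toAffine.Point, P ≠ 0 ∧ Xp W P = X₀ := by
  obtain ⟨r, hr⟩ := IsAlgClosed.exists_pow_nat_eq (fpol (cA W) (cB W) X₀) (n := 2) (by norm_num)
  set x₀ : F := X₀ - W.b₂ / 12 with hx₀
  set y₀ : F := (r - W.a₁ * x₀ - W.a₃) / 2 with hy₀
  have hX : Xc W x₀ = X₀ := by simp [Xc, hx₀]
  have heq : W.toAffine.Equation x₀ y₀ := by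
    rw [Affine.equation_iff]
    have h2 : 2 * y₀ + W.a₁ * x₀ + W.a₃ = r := by rw [hy₀]; ring
    have h3 : fpol (cA W) (cB W) (Xc W x₀)
        = 4 * x₀ ^ 3 + W.b₂ * x₀ ^ 2 + 2 * W.b₄ * x₀ + W.b₆ := by
      simp only [fpol, cA, cB, Xc, WeierstrassCurve.c₄, WeierstrassCurve.c₆]
      ring
    rw [hX] at h3
    rw [h3, ← h2] at hr
    simp only [WeierstrassCurve.b₂, WeierstrassCurve.b₄, WeierstrassCurve.b₆] at hr
    linear_combination (1 / 4 : F) * hr
  have hns : W.toAffine.Nonsingular x₀ y₀ :=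
    (Affine.equation_iff_nonsingular_of_Δ_ne_zero hΔ).mp heq
  exact ⟨.some x₀ y₀ hns, Point.some_ne_zero _, by rw [Xp_some, hX]⟩

lemma three_torsion_of_psi3 (hΔ : W.Δ ≠ 0) {P : W.toAffine.Point} (hP : P ≠ 0)
    (hψ : psi3 (cA W) (cB W) (Xp W P) = 0) : 3 • P = 0 := by
  have hd := disc_ne_zero W hΔ
  have hf : fpol (cA W) (cB W) (Xp W P) ≠ 0 := by
    intro hf
    apply fpol_ppol_coprime _ _ _ hd hf
    rw [psi3_eq, hf, mul_zero, zero_sub, neg_eq_zero] at hψ
    exact hψ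
  have h2 := Xp_double W hP hf
  have h2ne := double_ne_zero W hP hf
  have hX : Xp W (P + P) = Xp W P := by
    rw [psi3_eq, sub_eq_zero] at hψ
    rw [← hψ] at h2
    exact mul_right_cancel₀ hf h2
  rcases eq_or_eq_neg_of_Xp_eq W h2ne hP hX with h | h
  · exact absurd (by simpa using h) hP
  · have : 3 • P = (P + P) + P := by abel
    rw [this, h]; simp

lemma five_torsion_of_psi5 (hΔ : W.Δ ≠ 0) {P : W.toAffine.Point} (hP : P ≠ 0)
    (hψ : psi5 (cA W) (cB W) (Xp W P) = 0) : 5 • P = 0 := by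
  have hd := disc_ne_zero W hΔ
  have hI1 := ident_I1 (cA W) (cB W) (Xp W P)
  rw [hψ, mul_zero, neg_zero] at hI1
  -- Step 1
  have hf : fpol (cA W) (cB W) (Xp W P) ≠ 0 := by
    intro hf
    apply fpol_ppol_coprime _ _ _ hd hf
    rw [hf] at hI1
    unfold Phi at hI1
    have : ppol (cA W) (cB W) (Xp W P) ^ 4 = 0 := by
      linear_combination hI1
    exact pow_eq_zero_iff (by norm_num) |>.mp this
  -- Step 2
  have h3 : psi3 (cA W) (cB W) (Xp W P) ≠ 0 := by
    intro h3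
    have := ident_I3 (cA W) (cB W) (Xp W P)
    rw [hψ, h3, zero_mul, zero_add] at this
    exact hf (pow_eq_zero_iff (by norm_num) |>.mp this)
  -- Step 3
  have h2 := Xp_double W hP hf
  have h2ne := double_ne_zero W hP hf
  -- Step 4
  have hPhi := Phi_eq (cA W) (cB W) (Xp W P) (Xp W (P + P)) hf h2
  rw [hI1] at hPhi
  have h4 : ppol (cA W) (cB W) (Xp W (P + P)) = Xp W P * fpol (cA W) (cB W) (Xp W (P + P)) := by
    have := (mul_eq_zero.mp hPhi.symm).resolve_left (pow_ne_zero 4 hf)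
    exact sub_eq_zero.mp this
  -- Step 5
  have hf2 : fpol (cA W) (cB W) (Xp W (P + P)) ≠ 0 := by
    intro hf2
    apply fpol_ppol_coprime _ _ _ hd hf2
    rw [h4, hf2, mul_zero]
  -- Step 6
  have h22 := Xp_double W h2ne hf2
  have h4ne := double_ne_zero W h2ne hf2
  have hX : Xp W ((P + P) + (P + P)) = Xp W P := by
    rw [h4] at h22
    exact mul_right_cancel₀ hf2 h22
  -- Step 7
  rcases eq_or_eq_neg_of_Xp_eq W h4ne hP hX with h | h
  · exfalso
    have h3P : 3 • P = 0 := by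
      have e : 3 • P = ((P + P) + (P + P)) - P := by abel
      rw [e, h, sub_self]
    exact h3 (three_torsion_data W hP h3P).1
  · have : 5 • P = ((P + P) + (P + P)) + P := by abel
    rw [this, h]; simp

lemma exists_three_torsion [IsAlgClosed F] (hΔ : W.Δ ≠ 0) :
    ∃ P : W.toAffine.Point, P ≠ 0 ∧ 3 • P = 0 := by
  obtain ⟨X₀, hX₀⟩ := IsAlgClosed.exists_root (psi3P (cA W) (cB W)) (by
    rw [degree_eq_natDegree (psi3P_ne_zero _ _), natDegree_psi3P]; norm_num)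
  rw [IsRoot, eval_psi3P] at hX₀
  obtain ⟨P, hP, hXP⟩ := exists_point_Xp W hΔ X₀
  exact ⟨P, hP, three_torsion_of_psi3 W hΔ hP (by rw [hXP]; exact hX₀)⟩

lemma exists_five_torsion [IsAlgClosed F] (hΔ : W.Δ ≠ 0) :
    ∃ P : W.toAffine.Point, P ≠ 0 ∧ 5 • P = 0 := by
  obtain ⟨X₀, hX₀⟩ := IsAlgClosed.exists_root (psi5P (cA W) (cB W)) (by
    rw [degree_eq_natDegree (psi5P_ne_zero _ _), natDegree_psi5P]; norm_num)
  rw [IsRoot, eval_psi5P] at hX₀
  obtain ⟨P, hP, hXP⟩ := exists_point_Xp W hΔ X₀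
  exact ⟨P, hP, five_torsion_of_psi5 W hΔ hP (by rw [hXP]; exact hX₀)⟩

end Fermat.Agent.S51
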