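import Fermat.Agent.S51.Exist
import Fermat.Prelude.Def_FLTPrelim_GaloisRep

/-!
# S51 helper: Galois-stable lines in `E[3]`, `E[5]` and rationality of their `X`-coordinates
-/

set_option autoImplicit false
set_option linter.unusedSectionVars false
set_option linter.unusedVariables false

namespace Fermat.Agent.S51

open WeierstrassCurve WeierstrassCurve.Affine WeierstrassCurve.Affine.Point

noncomputable section

/-- the algebraic closure of `ℚ` -/
abbrev Qbar : Type := AlgebraicClosure ℚ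

theorem algebra_rat_Qbar_eq :
    (DivisionRing.toRatAlgebra : Algebra ℚ Qbar) = AlgebraicClosure.instAlgebra ℚ :=
  Subsingleton.elim _ _

theorem isGalois_Qbar : IsGalois ℚ Qbar := by
  rw [algebra_rat_Qbar_eq]; infer_instance

theorem rational_of_fixed (x : Qbar) (h : ∀ σ : Qbar ≃ₐ[ℚ] Qbar, σ x = x) :
    ∃ q : ℚ, algebraMap ℚ Qbar q = x := by
  have := isGalois_Qbar
  exact (InfiniteGalois.mem_range_algebraMap_iff_fixed (k := ℚ) (K := Qbar) x).mpr h

variable (E : WeierstrassCurve ℚ)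

/-- the base change of `E` to `ℚ̄` -/
abbrev EK : WeierstrassCurve Qbar := E⁄Qbar

lemma EK_Δ : (EK E).Δ = algebraMap ℚ Qbar E.Δ := WeierstrassCurve.map_Δ E _
lemma EK_c₄ : (EK E).c₄ = algebraMap ℚ Qbar E.c₄ := WeierstrassCurve.map_c₄ E _
lemma EK_c₆ : (EK E).c₆ = algebraMap ℚ Qbar E.c₆ := WeierstrassCurve.map_c₆ E _
lemma EK_b₂ : (EK E).b₂ = algebraMap ℚ Qbar E.b₂ := WeierstrassCurve.map_b₂ E _

lemma EK_Δ_ne_zero (hΔ : E.Δ ≠ 0) : (EK E).Δ ≠ 0 := by
  rw [EK_Δ]
  exact fun h => hΔ ((algebraMap ℚ Qbar).injective (by rw [h, _root_.map_zero]))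

lemma EK_cA : cA (EK E) = algebraMap ℚ Qbar (cA E) := by
  unfold cA; rw [EK_c₄]; simp [map_div₀, map_neg]

lemma EK_cB : cB (EK E) = algebraMap ℚ Qbar (cB E) := by
  unfold cB; rw [EK_c₆]; simp [map_div₀, map_neg]

/-- Galois equivariance of the `X`-coordinate -/
lemma Xp_smul (σ : Qbar ≃ₐ[ℚ] Qbar) (P : (E⁄Qbar).Point) :
    Xp (EK E) (σ • P) = σ (Xp (EK E) P) := by
  rcases P with _ | ⟨x, y, h⟩
  · show Xp (EK E) 0 = σ (Xp (EK E) 0)
    simp [Xp]
  · show Xp (EK E) (Point.map σ.toAlgHom (.some x y h)) = _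
    rw [Point.map_some]
    simp only [Xp_some, Xc, EK_b₂, map_add, map_div₀, AlgEquiv.commutes]
    rw [map_ofNat]
    rfl

end

end Fermat.Agent.S51
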