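import Fermat.Agent.S51.Dup

/-!
# S51 helper: polynomial identities for the 5-division polynomial
-/

set_option autoImplicit false
set_option linter.unusedSectionVars false

namespace Fermat.Agent.S51

variable {F : Type*} [Field F] [CharZero F]

/-- the 5-division polynomial of `Y² = X³ + AX + B` -/
def psi5 (A B X : F) : F :=
  5 * X ^ 12 + 62 * A * X ^ 10 + 380 * B * X ^ 9 - 105 * A ^ 2 * X ^ 8 + 240 * A * B * X ^ 7
    + (-300 * A ^ 3 - 240 * B ^ 2) * X ^ 6 - 696 * A ^ 2 * B * X ^ 5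
    + (-125 * A ^ 4 - 1920 * A * B ^ 2) * X ^ 4 + (-80 * A ^ 3 * B - 1600 * B ^ 3) * X ^ 3
    + (-50 * A ^ 5 - 240 * A ^ 2 * B ^ 2) * X ^ 2 + (-100 * A ^ 4 * B - 640 * A * B ^ 3) * X
    + (A ^ 6 - 32 * A ^ 3 * B ^ 2 - 256 * B ^ 4)

/-- cofactor in `ψ₅ + f⁴ = ψ₃ · M` -/
def Mpol (A B X : F) : F :=
  87 * X ^ 8 + 188 * A * X ^ 6 + 120 * B * X ^ 5 + 130 * A ^ 2 * X ^ 4 + 112 * A * B * X ^ 3
    + (44 * A ^ 3 - 48 * B ^ 2) * X ^ 2 + 88 * A ^ 2 * B * X + (32 * A * B ^ 2 - A ^ 4)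

/-- `Φ(P, Fv, X) = Fv⁴ · (p(P/Fv) - X f(P/Fv))` -/
def Phi (A B P Fv X : F) : F :=
  P ^ 4 - 2 * A * P ^ 2 * Fv ^ 2 - 8 * B * P * Fv ^ 3 + A ^ 2 * Fv ^ 4
    - X * (4 * (P ^ 3 + A * P * Fv ^ 2 + B * Fv ^ 3)) * Fv

lemma ident_I1 (A B X : F) :
    Phi A B (ppol A B X) (fpol A B X) X = -(psi3 A B X * psi5 A B X) := by
  unfold Phi ppol fpol psi3 psi5; ring

lemma ident_I2 (A B X : F) :
    (3 * X ^ 2 + 4 * A) * ppol A B X - (3 * X ^ 3 - 5 * A * X - 27 * B) * (X ^ 3 + A * X + B)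
      = 4 * A ^ 3 + 27 * B ^ 2 := by
  unfold ppol; ring

lemma ident_I3 (A B X : F) :
    psi5 A B X + fpol A B X ^ 4 = psi3 A B X * Mpol A B X := by
  unfold psi5 fpol psi3 Mpol; ring

/-- `Φ` in terms of the duplicated coordinate -/
lemma Phi_eq (A B X X₂ : F) (hf : fpol A B X ≠ 0) (h₂ : X₂ * fpol A B X = ppol A B X) :
    Phi A B (ppol A B X) (fpol A B X) X
      = fpol A B X ^ 4 * (ppol A B X₂ - X * fpol A B X₂) := by
  rw [← h₂]; unfold Phi; unfold ppol fpol; ring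

lemma fpol_ppol_coprime (A B X : F) (hΔ : 4 * A ^ 3 + 27 * B ^ 2 ≠ 0)
    (hf : fpol A B X = 0) : ppol A B X ≠ 0 := by
  intro hp
  apply hΔ
  have hf' : X ^ 3 + A * X + B = 0 := by
    unfold fpol at hf
    have h4 : (4 : F) ≠ 0 := by norm_num
    exact (mul_eq_zero.mp hf).resolve_left h4
  rw [← ident_I2 A B X, hp, hf']; ring

end Fermat.Agent.S51
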