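import Fermat.Agent.S51.Galois

/-!
# S51 helper: a Galois-stable proper nonzero submodule of `E[p]` is a line (p = 3, 5)
-/

set_option autoImplicit false
set_option linter.unusedSectionVars false
set_option linter.unusedVariables false
set_option linter.style.haveILetI false

namespace Fermat.Agent.S51

open WeierstrassCurve WeierstrassCurve.Affine WeierstrassCurve.Affine.Point

noncomputable section

variable (E : WeierstrassCurve ℚ)

lemma mem_tors_iff (n : ℕ) (P : (E⁄Qbar).Point) :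
    P ∈ Submodule.torsionBy ℤ (E⁄Qbar).Point (n : ℤ) ↔ n • P = 0 := by
  rw [Submodule.mem_torsionBy_iff, natCast_zsmul]

lemma tors_finite (n : ℕ) (h : (torsSet (EK E) n).Finite) :
    Finite (Submodule.torsionBy ℤ (E⁄Qbar).Point (n : ℤ)) := by
  haveI := h.to_subtype
  exact Finite.of_injective
    (fun P : Submodule.torsionBy ℤ (E⁄Qbar).Point (n : ℤ) =>
      (⟨P.1, (mem_tors_iff E n P.1).mp P.2⟩ : torsSet (EK E) n))
    (fun P Q hPQ => Subtype.ext (congrArg (fun z : torsSet (EK E) n => z.1) hPQ))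

lemma tors_card_le (n : ℕ) (h : (torsSet (EK E) n).Finite) :
    Nat.card (Submodule.torsionBy ℤ (E⁄Qbar).Point (n : ℤ)) ≤ (torsSet (EK E) n).ncard := by
  haveI := h.to_subtype
  rw [← Nat.card_coe_set_eq]
  exact Nat.card_le_card_of_injective
    (fun P : Submodule.torsionBy ℤ (E⁄Qbar).Point (n : ℤ) =>
      (⟨P.1, (mem_tors_iff E n P.1).mp P.2⟩ : torsSet (EK E) n))
    (fun P Q hPQ => Subtype.ext (congrArg (fun z : torsSet (EK E) n => z.1) hPQ))

theorem exists_stable_point (p : ℕ) [hp : Fact p.Prime]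
    (hfin : (torsSet (EK E) p).Finite) (hcard : (torsSet (EK E) p).ncard < p ^ 3)
    (hred : ¬ GaloisRepIsIrreducible (K := Qbar) ℚ E p)
    (hex : ∃ P : (E⁄Qbar).Point, P ≠ 0 ∧ p • P = 0) :
    ∃ P : (E⁄Qbar).Point, P ≠ 0 ∧ p • P = 0 ∧
      ∀ σ : Qbar ≃ₐ[ℚ] Qbar, ∃ c : ℕ, σ • P = c • P := by
  classical
  haveI : NeZero p := ⟨hp.out.ne_zero⟩
  -- nontriviality
  have hnt : Nontrivial (Submodule.torsionBy ℤ (E⁄Qbar).Point (p : ℤ)) := by
    obtain ⟨P, hP0, hP⟩ := hex
    refine ⟨⟨⟨P, (mem_tors_iff E p P).mpr hP⟩, 0, ?_⟩⟩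
    intro h
    exact hP0 (congrArg Subtype.val h)
  -- a stable proper nonzero submodule
  unfold GaloisRepIsIrreducible at hred
  rw [not_and] at hred
  have hred' := hred hnt
  rw [not_forall] at hred'
  obtain ⟨N, hN'⟩ := hred'
  rw [Classical.not_imp, not_or] at hN'
  obtain ⟨hN, hbot, htop⟩ := hN'
  -- finiteness
  haveI hfinT : Finite (Submodule.torsionBy ℤ (E⁄Qbar).Point (p : ℤ)) := tors_finite E p hfin
  haveI : Module.Finite (ZMod p) (Submodule.torsionBy ℤ (E⁄Qbar).Point (p : ℤ)) :=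
    Module.Finite.of_finite
  have hrank : Module.finrank (ZMod p) (Submodule.torsionBy ℤ (E⁄Qbar).Point (p : ℤ)) ≤ 2 := by
    by_contra hlt
    rw [not_le] at hlt
    have h1 := Module.natCard_eq_pow_finrank (K := ZMod p)
      (V := Submodule.torsionBy ℤ (E⁄Qbar).Point (p : ℤ))
    rw [Nat.card_zmod] at h1
    have h2 := tors_card_le E p hfin
    have h3 : p ^ 3 ≤ p ^ Module.finrank (ZMod p)
        (Submodule.torsionBy ℤ (E⁄Qbar).Point (p : ℤ)) :=
      Nat.pow_le_pow_right hp.out.pos hlt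
    omega
  have hN1 : Module.finrank (ZMod p) N = 1 := by
    have hlt := Submodule.finrank_lt htop
    have hpos : 0 < Module.finrank (ZMod p) N := by
      rw [Module.finrank_pos_iff_exists_ne_zero]
      obtain ⟨x, hx, hx0⟩ := (Submodule.ne_bot_iff N).mp hbot
      exact ⟨⟨x, hx⟩, fun h => hx0 (congrArg Subtype.val h)⟩
    omega
  obtain ⟨v, hv0, hv⟩ := finrank_eq_one_iff'.mp hN1
  refine ⟨v.1.1, ?_, (mem_tors_iff E p v.1.1).mp v.1.2, ?_⟩
  · intro h
    apply hv0
    apply Subtype.ext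
    apply Subtype.ext
    exact h
  · intro σ
    have hσ : σ • (v.1) ∈ N := hN σ v.1 v.2
    obtain ⟨c, hc⟩ := hv ⟨σ • v.1, hσ⟩
    refine ⟨c.val, ?_⟩
    have h1 : (c • v : N).1 = σ • v.1 := congrArg Subtype.val hc
    have h2 : ((c • v : N).1).1 = (σ • v.1).1 := congrArg Subtype.val h1
    have h3 : (σ • v.1).1 = σ • (v.1.1) := rfl
    rw [← h3, ← h2]
    have h4 : c • v = c.val • v := by
      conv_lhs => rw [← ZMod.natCast_zmod_val c]
      exact Nat.cast_smul_eq_nsmul (ZMod p) c.val v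
    rw [h4]
    simp

end

end Fermat.Agent.S51
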