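import Mathlib

/-!
# No nontrivial solutions of `U² = V² + E²`, `U² = W² + 81 E²`

This is the Fermat-descent core of the determination of the rational points of
`y² = x (x - 1) (x - 81)` (a model in the isogeny class of `X₀(15)`).
-/

set_option autoImplicit false

namespace Fermat.Agent.S51

/-- A positive integer coprime to `b` whose product with `b` is a square is a square. -/
theorem sq_of_isCoprime_of_pos {a b c : ℤ} (h : IsCoprime a b) (ha : 0 < a)
    (heq : a * b = c ^ 2) : ∃ a0 : ℤ, a = a0 ^ 2 := by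
  obtain ⟨a0, h0 | h0⟩ := Int.sq_of_isCoprime h heq
  · exact ⟨a0, h0⟩
  · exfalso; nlinarith [sq_nonneg a0]

/-- If `a² n = m²` with `a ≠ 0` then `n` is a square. -/
theorem exists_sq_of_sq_mul_eq {a n m : ℤ} (ha : a ≠ 0) (h : a ^ 2 * n = m ^ 2) :
    ∃ k : ℤ, n = k ^ 2 := by
  have hdvd : a ∣ m := by
    have h2 : a ^ 2 ∣ m ^ 2 := ⟨n, h.symm⟩
    exact (Int.pow_dvd_pow_iff two_ne_zero).mp h2
  obtain ⟨k, rfl⟩ := hdvd
  refine ⟨k, ?_⟩
  have ha2 : a ^ 2 ≠ 0 := pow_ne_zero 2 ha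
  have h3 : a ^ 2 * n = a ^ 2 * k ^ 2 := by rw [h]; ring
  exact mul_left_cancel₀ ha2 h3

theorem zmod3_sq_add_sq : ∀ v e : ZMod 3, v ^ 2 + e ^ 2 = 0 → e = 0 := by decide

theorem zmod4_even_odd : ∀ k v j : ZMod 4, (2 * k) ^ 2 = v ^ 2 + (2 * j + 1) ^ 2 → False := by
  decide

theorem zmod8_odd_sq : ∀ m x : ZMod 8, 2 * m + 1 = x ^ 2 → x ^ 2 = 1 := by decide

/-- `3 ∤ U` for a coprime solution. -/
theorem not_three_dvd_of_sol {U V E : ℤ} (hcop : IsCoprime U E) (h1 : U ^ 2 = V ^ 2 + E ^ 2) :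
    ¬ (3 : ℤ) ∣ U := by
  intro h3
  have hU : ((U : ℤ) : ZMod 3) = 0 := (ZMod.intCast_zmod_eq_zero_iff_dvd U 3).mpr h3
  have hc : ((U : ℤ) : ZMod 3) ^ 2 = ((V : ℤ) : ZMod 3) ^ 2 + ((E : ℤ) : ZMod 3) ^ 2 := by
    have := congrArg (Int.cast : ℤ → ZMod 3) h1
    push_cast at this
    exact this
  rw [hU] at hc
  have hE : ((E : ℤ) : ZMod 3) = 0 := zmod3_sq_add_sq _ _ (by rw [← hc]; ring)
  have h3E : (3 : ℤ) ∣ E := (ZMod.intCast_zmod_eq_zero_iff_dvd E 3).mp hE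
  have := hcop.isUnit_of_dvd' h3 h3E
  rw [Int.isUnit_iff] at this
  omega

/-- `U` is odd for a coprime solution. -/
theorem odd_of_sol {U V E : ℤ} (hcop : IsCoprime U E) (h1 : U ^ 2 = V ^ 2 + E ^ 2) :
    Odd U := by
  rcases Int.even_or_odd U with hU | hU
  swap
  · exact hU
  exfalso
  obtain ⟨k, hk⟩ := hU
  rcases Int.even_or_odd E with hE | hE
  · obtain ⟨j, hj⟩ := hE
    have h2U : (2 : ℤ) ∣ U := ⟨k, by rw [hk]; ring⟩
    have h2E : (2 : ℤ) ∣ E := ⟨j, by rw [hj]; ring⟩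
    have := hcop.isUnit_of_dvd' h2U h2E
    rw [Int.isUnit_iff] at this
    omega
  · obtain ⟨j, hj⟩ := hE
    have hc := congrArg (Int.cast : ℤ → ZMod 4) h1
    rw [hk, hj] at hc
    push_cast at hc
    exact zmod4_even_odd (k : ZMod 4) (V : ZMod 4) (j : ZMod 4) (by rw [← hc]; ring)

/-- Coprimality of half-sum and half-difference. -/
theorem isCoprime_half {U V A B : ℤ} (h : IsCoprime U V) (hU : U = A + B) (hV : V = A - B) :
    IsCoprime A B := by
  obtain ⟨s, t, hst⟩ := h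
  exact ⟨s + t, s - t, by rw [hU, hV] at hst; linear_combination hst⟩

/-- Coprimality of sum and difference when the sum is odd. -/
theorem isCoprime_add_sub_of_odd {U V : ℤ} (h : IsCoprime U V) (hodd : Odd (U + V)) :
    IsCoprime (U + V) (U - V) := by
  obtain ⟨s, t, hst⟩ := h
  obtain ⟨m, hm⟩ := hodd
  exact ⟨1 - m * (s + t), -(m * (s - t)), by linear_combination hm - 2 * m * hst⟩


/-- Basic positivity facts for a solution with nonnegative entries. -/
theorem pos_facts {U V W E : ℤ} (hE : E ≠ 0) (hU0 : 0 ≤ U) (hV0 : 0 ≤ V) (hW0 : 0 ≤ W)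
    (h1 : U ^ 2 = V ^ 2 + E ^ 2) (h2 : U ^ 2 = W ^ 2 + 81 * E ^ 2) :
    0 < U ∧ V < U ∧ W < U ∧ W < V := by
  have hE2 : 0 < E ^ 2 := by positivity
  refine ⟨?_, ?_, ?_, ?_⟩
  · rcases hU0.lt_or_eq with h | h
    · exact h
    · exfalso; rw [← h] at h1; nlinarith [sq_nonneg V]
  · by_contra hcon
    have hcon' := not_lt.mp hcon
    nlinarith
  · by_contra hcon
    have hcon' := not_lt.mp hcon
    nlinarith
  · by_contra hcon
    have hcon' := not_lt.mp hcon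
    nlinarith

/-- In a coprime solution, `E` is even. -/
theorem even_of_sol {U V W E : ℤ} (hE : E ≠ 0) (hcop : IsCoprime U E)
    (hU0 : 0 ≤ U) (hV0 : 0 ≤ V) (hW0 : 0 ≤ W)
    (h1 : U ^ 2 = V ^ 2 + E ^ 2) (h2 : U ^ 2 = W ^ 2 + 81 * E ^ 2) : Even E := by
  rcases Int.even_or_odd E with hEe | hEo
  · exact hEe
  exfalso
  obtain ⟨hUpos, hVU, hWU, hWV⟩ := pos_facts hE hU0 hV0 hW0 h1 h2
  have hUodd : Odd U := odd_of_sol hcop h1
  have h3 : ¬ (3 : ℤ) ∣ U := not_three_dvd_of_sol hcop h1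
  -- coprimality
  have hcUV : IsCoprime U V := by
    have h : IsCoprime U (-(E ^ 2) + U * U) := (hcop.pow_right (n := 2)).neg_right.add_mul_left_right U
    have hV2 : V ^ 2 = -(E ^ 2) + U * U := by linarith
    rw [← hV2] at h
    exact (IsCoprime.pow_right_iff (by norm_num)).mp h
  have hcU3 : IsCoprime U 3 := by
    have hp : Prime (3 : ℤ) := Int.prime_three
    exact ((Prime.coprime_iff_not_dvd hp).mpr h3).symm
  have hcUW : IsCoprime U W := by
    have h81 : IsCoprime U (81 * E ^ 2) := by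
      have : (81 : ℤ) = 3 ^ 4 := by norm_num
      rw [this]
      exact (hcU3.pow_right).mul_right hcop.pow_right
    have h : IsCoprime U (-(81 * E ^ 2) + U * U) := h81.neg_right.add_mul_left_right U
    have hW2 : W ^ 2 = -(81 * E ^ 2) + U * U := by linarith
    rw [← hW2] at h
    exact (IsCoprime.pow_right_iff (by norm_num)).mp h
  -- parities
  have hVeven : Even V := by
    have : Even (V ^ 2) := by
      have hV2 : V ^ 2 = U ^ 2 - E ^ 2 := by linarith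
      rw [hV2]
      exact (hUodd.pow).sub_odd hEo.pow
    exact (Int.even_pow.mp this).1
  have hWeven : Even W := by
    have : Even (W ^ 2) := by
      have hW2 : W ^ 2 = U ^ 2 - 81 * E ^ 2 := by linarith
      rw [hW2]
      refine (hUodd.pow).sub_odd ?_
      exact (by decide : Odd (81 : ℤ)).mul hEo.pow
    exact (Int.even_pow.mp this).1
  have hUVodd : Odd (U + V) := hUodd.add_even hVeven
  have hUWodd : Odd (U + W) := hUodd.add_even hWeven
  have hUV'odd : Odd (U - V) := hUodd.sub_even hVeven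
  have hc1 : IsCoprime (U + V) (U - V) := isCoprime_add_sub_of_odd hcUV hUVodd
  have hc2 : IsCoprime (U + W) (U - W) := isCoprime_add_sub_of_odd hcUW hUWodd
  obtain ⟨a, ha⟩ := sq_of_isCoprime_of_pos (c := E) hc1 (by linarith) (by linear_combination h1)
  obtain ⟨b, hb⟩ := sq_of_isCoprime_of_pos (c := E) hc1.symm (by linarith)
    (by linear_combination h1)
  obtain ⟨p, hp⟩ := sq_of_isCoprime_of_pos (c := 9 * E) hc2 (by linarith)
    (by linear_combination h2)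
  -- odd squares are 1 mod 8
  have e1 : ((U + V : ℤ) : ZMod 8) = 1 := by
    obtain ⟨m, hm⟩ := hUVodd
    have h := congrArg (Int.cast : ℤ → ZMod 8) ha
    have h' := zmod8_odd_sq (m : ZMod 8) (a : ZMod 8) (by
      rw [hm] at h; push_cast at h; exact h)
    rw [h]; push_cast; exact h'
  have e2 : ((U - V : ℤ) : ZMod 8) = 1 := by
    obtain ⟨m, hm⟩ := hUV'odd
    have h := congrArg (Int.cast : ℤ → ZMod 8) hb
    have h' := zmod8_odd_sq (m : ZMod 8) (b : ZMod 8) (by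
      rw [hm] at h; push_cast at h; exact h)
    rw [h]; push_cast; exact h'
  have e3 : ((U + W : ℤ) : ZMod 8) = 1 := by
    obtain ⟨m, hm⟩ := hUWodd
    have h := congrArg (Int.cast : ℤ → ZMod 8) hp
    have h' := zmod8_odd_sq (m : ZMod 8) (p : ZMod 8) (by
      rw [hm] at h; push_cast at h; exact h)
    rw [h]; push_cast; exact h'
  have d1 : (8 : ℤ) ∣ V + W := by
    have : ((V + W : ℤ) : ZMod 8) = 0 := by
      have : (V + W : ℤ) = (U + W) - (U - V) := by ring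
      rw [this, Int.cast_sub, e3, e2, sub_self]
    exact_mod_cast (ZMod.intCast_zmod_eq_zero_iff_dvd (V + W) 8).mp this
  have d2 : (8 : ℤ) ∣ V - W := by
    have : ((V - W : ℤ) : ZMod 8) = 0 := by
      have : (V - W : ℤ) = (U + V) - (U + W) := by ring
      rw [this, Int.cast_sub, e1, e3, sub_self]
    exact_mod_cast (ZMod.intCast_zmod_eq_zero_iff_dvd (V - W) 8).mp this
  obtain ⟨k1, hk1⟩ := d1
  obtain ⟨k2, hk2⟩ := d2
  have hprod : (V + W) * (V - W) = 80 * E ^ 2 := by linear_combination h2 - h1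
  rw [hk1, hk2] at hprod
  have hE4 : E ^ 2 % 4 = 1 := Int.sq_mod_four_eq_one_of_odd hEo
  have : 5 * E ^ 2 = 4 * (k1 * k2) := by linarith
  omega


/-- Descent step: a coprime solution with nonnegative entries yields a solution with
smaller `|E|`. -/
theorem exists_smaller {U V W E : ℤ} (hE : E ≠ 0) (hcop : IsCoprime U E)
    (hU0 : 0 ≤ U) (hV0 : 0 ≤ V) (hW0 : 0 ≤ W)
    (h1 : U ^ 2 = V ^ 2 + E ^ 2) (h2 : U ^ 2 = W ^ 2 + 81 * E ^ 2) :
    ∃ U' V' W' E' : ℤ, E' ≠ 0 ∧ E'.natAbs < E.natAbs ∧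
      U' ^ 2 = V' ^ 2 + E' ^ 2 ∧ U' ^ 2 = W' ^ 2 + 81 * E' ^ 2 := by
  obtain ⟨hUpos, hVU, hWU, hWV⟩ := pos_facts hE hU0 hV0 hW0 h1 h2
  have hUodd : Odd U := odd_of_sol hcop h1
  have h3 : ¬ (3 : ℤ) ∣ U := not_three_dvd_of_sol hcop h1
  have hEeven : Even E := even_of_sol hE hcop hU0 hV0 hW0 h1 h2
  -- coprimality
  have hcUV : IsCoprime U V := by
    have h : IsCoprime U (-(E ^ 2) + U * U) := (hcop.pow_right (n := 2)).neg_right.add_mul_left_right U
    have hV2 : V ^ 2 = -(E ^ 2) + U * U := by linarith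
    rw [← hV2] at h
    exact (IsCoprime.pow_right_iff (by norm_num)).mp h
  have hcU3 : IsCoprime U 3 := by
    have hp : Prime (3 : ℤ) := Int.prime_three
    exact ((Prime.coprime_iff_not_dvd hp).mpr h3).symm
  have hcUW : IsCoprime U W := by
    have h81 : IsCoprime U (81 * E ^ 2) := by
      have : (81 : ℤ) = 3 ^ 4 := by norm_num
      rw [this]
      exact (hcU3.pow_right).mul_right hcop.pow_right
    have h : IsCoprime U (-(81 * E ^ 2) + U * U) := h81.neg_right.add_mul_left_right U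
    have hW2 : W ^ 2 = -(81 * E ^ 2) + U * U := by linarith
    rw [← hW2] at h
    exact (IsCoprime.pow_right_iff (by norm_num)).mp h
  have hcVE : IsCoprime V E := by
    have h : IsCoprime E (U ^ 2 + E * -E) :=
      (hcop.symm.pow_right (n := 2)).add_mul_left_right (-E)
    have hV2 : U ^ 2 + E * -E = V ^ 2 := by linear_combination h1
    rw [hV2] at h
    exact ((IsCoprime.pow_right_iff (by norm_num)).mp h).symm
  -- parities
  have hVodd : Odd V := by
    have : Odd (V ^ 2) := by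
      have hV2 : V ^ 2 = U ^ 2 - E ^ 2 := by linarith
      rw [hV2]
      exact (hUodd.pow).sub_even (Int.even_pow.mpr ⟨hEeven, by norm_num⟩)
    exact (Int.odd_pow.mp this).resolve_right (by norm_num)
  have hWodd : Odd W := by
    have : Odd (W ^ 2) := by
      have hW2 : W ^ 2 = U ^ 2 - 81 * E ^ 2 := by linarith
      rw [hW2]
      exact (hUodd.pow).sub_even ((Int.even_pow.mpr ⟨hEeven, by norm_num⟩).mul_left 81)
    exact (Int.odd_pow.mp this).resolve_right (by norm_num)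
  obtain ⟨u, hu⟩ := hUodd
  obtain ⟨v, hv⟩ := hVodd
  obtain ⟨w, hw⟩ := hWodd
  obtain ⟨E₁, hE₁⟩ := hEeven
  -- the half sums / differences
  set A : ℤ := u + v + 1 with hA
  set B : ℤ := u - v with hB
  set P : ℤ := u + w + 1 with hP
  set Q : ℤ := u - w with hQ
  have hUAB : U = A + B := by rw [hu, hA, hB]; ring
  have hVAB : V = A - B := by rw [hv, hA, hB]; ring
  have hUPQ : U = P + Q := by rw [hu, hP, hQ]; ring
  have hWPQ : W = P - Q := by rw [hw, hP, hQ]; ring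
  have hApos : 0 < A := by rw [hA]; linarith
  have hBpos : 0 < B := by rw [hB]; linarith
  have hPpos : 0 < P := by rw [hP]; linarith
  have hQpos : 0 < Q := by rw [hQ]; linarith
  have hAB : A * B = E₁ ^ 2 := by
    have : 4 * (A * B) = 4 * E₁ ^ 2 := by
      have e : E ^ 2 = 4 * E₁ ^ 2 := by rw [hE₁]; ring
      rw [← e]
      rw [hUAB, hVAB] at h1
      linear_combination h1
    linarith
  have hPQ : P * Q = (9 * E₁) ^ 2 := by
    have : 4 * (P * Q) = 4 * (9 * E₁) ^ 2 := by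
      have e : 81 * E ^ 2 = 4 * (9 * E₁) ^ 2 := by rw [hE₁]; ring
      rw [← e]
      rw [hUPQ, hWPQ] at h2
      linear_combination h2
    linarith
  have hcAB : IsCoprime A B := isCoprime_half hcUV hUAB hVAB
  have hcPQ : IsCoprime P Q := isCoprime_half hcUW hUPQ hWPQ
  obtain ⟨a, ha⟩ := sq_of_isCoprime_of_pos hcAB hApos hAB
  obtain ⟨b, hb⟩ := sq_of_isCoprime_of_pos hcAB.symm hBpos (by rw [mul_comm]; exact hAB)
  obtain ⟨p, hp⟩ := sq_of_isCoprime_of_pos hcPQ hPpos hPQ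
  obtain ⟨q, hq⟩ := sq_of_isCoprime_of_pos hcPQ.symm hQpos (by rw [mul_comm]; exact hPQ)
  have ha0 : a ≠ 0 := by rintro rfl; rw [ha] at hApos; simp at hApos
  have hb0 : b ≠ 0 := by rintro rfl; rw [hb] at hBpos; simp at hBpos
  have hE₁0 : E₁ ≠ 0 := by rintro rfl; apply hE; rw [hE₁]; ring
  -- size
  have hsize : b.natAbs < E.natAbs := by
    have h1' : E₁.natAbs = (a * b).natAbs := by
      rw [Int.natAbs_eq_iff_sq_eq, ← hAB, ha, hb]; ring
    have h2' : E.natAbs = 2 * (a.natAbs * b.natAbs) := by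
      rw [hE₁, ← two_mul, Int.natAbs_mul, h1', Int.natAbs_mul]; rfl
    have ha1 : 0 < a.natAbs := Int.natAbs_pos.mpr ha0
    have hb1 : 0 < b.natAbs := Int.natAbs_pos.mpr hb0
    rw [h2']
    nlinarith
  -- G and H
  set G : ℤ := P - B with hG
  set H : ℤ := Q - B with hH
  have hGH_sum : G + H = V := by rw [hG, hH, hVAB]; linarith
  have hGH_diff : G - H = W := by rw [hG, hH, hWPQ]; ring
  have hGH : G * H = 5 * (4 * E₁) ^ 2 := by
    have e : 4 * (G * H) = V ^ 2 - W ^ 2 := by rw [← hGH_sum, ← hGH_diff]; ring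
    have e2 : V ^ 2 - W ^ 2 = 80 * E ^ 2 := by linarith
    rw [hE₁] at e2
    linarith
  have hGpos : 0 < G := by
    have hVpos : 0 < V := by rw [hv]; omega
    nlinarith
  have hHpos : 0 < H := by
    have : 0 < G * H := by rw [hGH]; positivity
    exact (pos_iff_pos_of_mul_pos this).mp hGpos
  -- coprimality of G and H
  have hcGH : IsCoprime G H := by
    rw [Int.isCoprime_iff_gcd_eq_one]
    set δ := Int.gcd G H with hδ
    have hδG : (δ : ℤ) ∣ G := Int.gcd_dvd_left G H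
    have hδH : (δ : ℤ) ∣ H := Int.gcd_dvd_right G H
    have hδV : (δ : ℤ) ∣ V := by rw [← hGH_sum]; exact dvd_add hδG hδH
    have hcδE : IsCoprime (δ : ℤ) E := IsCoprime.of_isCoprime_of_dvd_left hcVE hδV
    have hδ2 : (δ : ℤ) ^ 2 ∣ 20 * E ^ 2 := by
      have : (δ : ℤ) ^ 2 ∣ G * H := by rw [pow_two]; exact mul_dvd_mul hδG hδH
      have e : (5 : ℤ) * (4 * E₁) ^ 2 = 20 * E ^ 2 := by rw [hE₁]; ring
      rw [hGH, e] at this
      exact this
    have hδ20 : (δ : ℤ) ^ 2 ∣ 20 := (hcδE.pow (m := 2) (n := 2)).dvd_of_dvd_mul_right hδ2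
    have hδ20' : δ ^ 2 ∣ 20 := by exact_mod_cast hδ20
    have hle : δ ^ 2 ≤ 20 := Nat.le_of_dvd (by norm_num) hδ20'
    have hδ4 : δ ≤ 4 := by nlinarith
    have hδodd : ¬ (2 : ℤ) ∣ V := by rw [hv]; omega
    interval_cases δ
    · simp at hδ20'
    · rfl
    · exact absurd hδV hδodd
    · norm_num at hδ20'
    · norm_num at hδ20'
  -- 5 divides G or H
  have h5 : (5 : ℤ) ∣ G * H := ⟨(4 * E₁) ^ 2, hGH⟩
  have hsum : A + B = P + Q := by rw [← hUAB, ← hUPQ]
  have hp5 : Prime (5 : ℤ) := by rw [Int.prime_iff_natAbs_prime]; norm_num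
  rcases (hp5.dvd_or_dvd h5) with h5G | h5H
  · -- H is a square
    obtain ⟨G', hG'⟩ := h5G
    have hprod : H * G' = (4 * E₁) ^ 2 := by
      have : 5 * (H * G') = 5 * (4 * E₁) ^ 2 := by rw [← hGH, hG']; ring
      linarith
    have hcHG' : IsCoprime H G' := by
      have : IsCoprime H G := hcGH.symm
      rw [hG'] at this
      exact this.of_mul_right_right
    obtain ⟨h, hh⟩ := sq_of_isCoprime_of_pos hcHG' hHpos hprod
    -- new solution (q, h, ?, b)
    have key : a ^ 2 * (q ^ 2 - 81 * b ^ 2) = (q * h) ^ 2 := by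
      have hh' : Q - B = h ^ 2 := by rw [← hh]
      rw [mul_pow, ← hq, ← hh', ← ha, ← hb]
      linear_combination (-81) * hAB + hPQ + Q * hsum
    obtain ⟨W', hW'⟩ := exists_sq_of_sq_mul_eq ha0 key
    refine ⟨q, h, W', b, hb0, hsize, ?_, ?_⟩
    · rw [← hq, ← hh, ← hb, hH]; ring
    · rw [← hW']; ring
  · -- G is a square
    obtain ⟨H', hH'⟩ := h5H
    have hprod : G * H' = (4 * E₁) ^ 2 := by
      have : 5 * (G * H') = 5 * (4 * E₁) ^ 2 := by rw [← hGH, hH']; ring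
      linarith
    have hcGH' : IsCoprime G H' := by
      have : IsCoprime G H := hcGH
      rw [hH'] at this
      exact this.of_mul_right_right
    obtain ⟨g, hg⟩ := sq_of_isCoprime_of_pos hcGH' hGpos hprod
    have key : a ^ 2 * (p ^ 2 - 81 * b ^ 2) = (p * g) ^ 2 := by
      have hg' : P - B = g ^ 2 := by rw [← hg]
      rw [mul_pow, ← hp, ← hg', ← ha, ← hb]
      linear_combination (-81) * hAB + hPQ + P * hsum
    obtain ⟨W', hW'⟩ := exists_sq_of_sq_mul_eq ha0 key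
    refine ⟨p, g, W', b, hb0, hsize, ?_, ?_⟩
    · rw [← hp, ← hg, ← hb, hG]; ring
    · rw [← hW']; ring


/-- Removing the common factor of `U` and `E`. -/
theorem exists_coprime {U V W E : ℤ} (hE : E ≠ 0)
    (h1 : U ^ 2 = V ^ 2 + E ^ 2) (h2 : U ^ 2 = W ^ 2 + 81 * E ^ 2) :
    ∃ U' V' W' E' : ℤ, E' ≠ 0 ∧ E'.natAbs ≤ E.natAbs ∧ IsCoprime U' E' ∧
      0 ≤ U' ∧ 0 ≤ V' ∧ 0 ≤ W' ∧
      U' ^ 2 = V' ^ 2 + E' ^ 2 ∧ U' ^ 2 = W' ^ 2 + 81 * E' ^ 2 := by
  set d := Int.gcd U E with hd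
  have hd0 : d ≠ 0 := by
    intro h0
    exact hE ((Int.gcd_eq_zero_iff.mp h0).2)
  have hdZ : (d : ℤ) ≠ 0 := by exact_mod_cast hd0
  obtain ⟨U₁, hU₁⟩ : (d : ℤ) ∣ U := Int.gcd_dvd_left U E
  obtain ⟨E₁, hE₁⟩ : (d : ℤ) ∣ E := Int.gcd_dvd_right U E
  have hdV : (d : ℤ) ∣ V := by
    have : (d : ℤ) ^ 2 ∣ V ^ 2 := by
      refine ⟨U₁ ^ 2 - E₁ ^ 2, ?_⟩
      have : V ^ 2 = U ^ 2 - E ^ 2 := by linarith
      rw [this, hU₁, hE₁]; ring
    exact (Int.pow_dvd_pow_iff two_ne_zero).mp this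
  have hdW : (d : ℤ) ∣ W := by
    have : (d : ℤ) ^ 2 ∣ W ^ 2 := by
      refine ⟨U₁ ^ 2 - 81 * E₁ ^ 2, ?_⟩
      have : W ^ 2 = U ^ 2 - 81 * E ^ 2 := by linarith
      rw [this, hU₁, hE₁]; ring
    exact (Int.pow_dvd_pow_iff two_ne_zero).mp this
  obtain ⟨V₁, hV₁⟩ := hdV
  obtain ⟨W₁, hW₁⟩ := hdW
  have hd2 : (d : ℤ) ^ 2 ≠ 0 := pow_ne_zero 2 hdZ
  have e1 : U₁ ^ 2 = V₁ ^ 2 + E₁ ^ 2 := by
    have : (d : ℤ) ^ 2 * U₁ ^ 2 = (d : ℤ) ^ 2 * (V₁ ^ 2 + E₁ ^ 2) := by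
      rw [hU₁, hV₁, hE₁] at h1; linear_combination h1
    exact mul_left_cancel₀ hd2 this
  have e2 : U₁ ^ 2 = W₁ ^ 2 + 81 * E₁ ^ 2 := by
    have : (d : ℤ) ^ 2 * U₁ ^ 2 = (d : ℤ) ^ 2 * (W₁ ^ 2 + 81 * E₁ ^ 2) := by
      rw [hU₁, hW₁, hE₁] at h2; linear_combination h2
    exact mul_left_cancel₀ hd2 this
  have hE₁0 : E₁ ≠ 0 := by rintro rfl; apply hE; rw [hE₁]; ring
  have hcop : IsCoprime U₁ E₁ := by
    rw [Int.isCoprime_iff_gcd_eq_one]
    have hdpos : 0 < d := Nat.pos_of_ne_zero hd0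
    have := Int.gcd_div_gcd_div_gcd (i := U) (j := E) hdpos
    rw [← hd] at this
    have hU' : U / (d : ℤ) = U₁ := by rw [hU₁]; exact Int.mul_ediv_cancel_left _ hdZ
    have hE' : E / (d : ℤ) = E₁ := by rw [hE₁]; exact Int.mul_ediv_cancel_left _ hdZ
    rw [hU', hE'] at this
    exact this
  refine ⟨|U₁|, |V₁|, |W₁|, E₁, hE₁0, ?_, ?_, abs_nonneg _, abs_nonneg _, abs_nonneg _, ?_, ?_⟩
  · rw [hE₁, Int.natAbs_mul]
    have : 0 < (d : ℤ).natAbs := Int.natAbs_pos.mpr hdZ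
    exact Nat.le_mul_of_pos_left _ this
  · rcases abs_choice U₁ with h | h
    · rw [h]; exact hcop
    · rw [h]; exact hcop.neg_left
  · rw [sq_abs, sq_abs]; exact e1
  · rw [sq_abs, sq_abs]; exact e2

theorem no_sol_aux : ∀ n : ℕ, ∀ U V W E : ℤ, E.natAbs = n → E ≠ 0 →
    U ^ 2 = V ^ 2 + E ^ 2 → U ^ 2 = W ^ 2 + 81 * E ^ 2 → False := by
  intro n
  induction n using Nat.strong_induction_on with
  | _ n ih =>
    intro U V W E hn hE h1 h2
    obtain ⟨U₁, V₁, W₁, E₁, hE₁, hle, hcop, hU0, hV0, hW0, e1, e2⟩ := exists_coprime hE h1 h2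
    obtain ⟨U₂, V₂, W₂, E₂, hE₂, hlt, f1, f2⟩ := exists_smaller hE₁ hcop hU0 hV0 hW0 e1 e2
    exact ih E₂.natAbs (by omega) U₂ V₂ W₂ E₂ rfl hE₂ f1 f2

/-- **Theorem A.** The system `U² = V² + E²`, `U² = W² + 81 E²` has no integer solution with
`E ≠ 0`. -/
theorem no_sol (U V W E : ℤ) (hE : E ≠ 0) (h1 : U ^ 2 = V ^ 2 + E ^ 2)
    (h2 : U ^ 2 = W ^ 2 + 81 * E ^ 2) : False :=
  no_sol_aux E.natAbs U V W E rfl hE h1 h2

end Fermat.Agent.S51
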