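import Fermat.Agent.S51.Ident

/-!
# S51 helper: 3- and 5-torsion points via the duplication map on X-coordinates
-/

set_option autoImplicit false
set_option linter.unusedSectionVars false
set_option linter.unusedVariables false

namespace Fermat.Agent.S51

open WeierstrassCurve WeierstrassCurve.Affine

variable {F : Type*} [Field F] [CharZero F] [DecidableEq F] (W : WeierstrassCurve F)

/-- shifted X-coordinate of a point (`0` at infinity) -/
noncomputable def Xp : W.toAffine.Point → F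
  | .zero => 0
  | .some x _ _ => Xc W x

@[simp] lemma Xp_some {x y : F} (h : W.toAffine.Nonsingular x y) :
    Xp W (.some x y h) = Xc W x := rfl

lemma Xp_neg (P : W.toAffine.Point) : Xp W (-P) = Xp W P := by
  cases P <;> rfl

lemma cAB_disc : 4 * cA W ^ 3 + 27 * cB W ^ 2 = -W.Δ / 16 := by
  have h := W.c_relation
  unfold cA cB
  linear_combination (1 / 27648 : F) * h

lemma eq_or_eq_neg_of_Xp_eq {P Q : W.toAffine.Point} (hP : P ≠ 0) (hQ : Q ≠ 0)
    (h : Xp W P = Xp W Q) : P = Q ∨ P = -Q := by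
  rcases P with _ | ⟨x₁, y₁, h₁⟩
  · exact absurd rfl hP
  rcases Q with _ | ⟨x₂, y₂, h₂⟩
  · exact absurd rfl hQ
  have hx : x₁ = x₂ := by
    simp only [Xp_some, Xc] at h
    exact add_right_cancel h
  exact Point.X_eq_iff.mp hx

lemma add_self_eq_zero_iff {P : W.toAffine.Point} (hP : P ≠ 0) :
    P + P = 0 ↔ fpol (cA W) (cB W) (Xp W P) = 0 := by
  rcases P with _ | ⟨x, y, h⟩
  · exact absurd rfl hP
  rw [Xp_some, ← sq_sub_negY W h.1]
  constructor
  · intro h0
    by_cases hy : y = W.toAffine.negY x y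
    · rw [← hy]; simp
    · rw [Point.add_self_of_Y_ne hy] at h0
      exact absurd h0 (Point.some_ne_zero _)
  · intro h0
    have hy : y = W.toAffine.negY x y := by
      have := pow_eq_zero_iff (two_ne_zero) |>.mp h0
      exact sub_eq_zero.mp this
    exact Point.add_self_of_Y_eq hy

lemma Xp_double {P : W.toAffine.Point} (hP : P ≠ 0)
    (hf : fpol (cA W) (cB W) (Xp W P) ≠ 0) :
    Xp W (P + P) * fpol (cA W) (cB W) (Xp W P) = ppol (cA W) (cB W) (Xp W P) := by
  rcases P with _ | ⟨x, y, h⟩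
  · exact absurd rfl hP
  have hy : y ≠ W.toAffine.negY x y := by
    intro hy
    apply hf
    rw [Xp_some, ← sq_sub_negY W h.1, ← hy]; simp
  rw [Point.add_self_of_Y_ne hy, Xp_some, Xp_some]
  exact dup_formula W h.1 hy

lemma double_ne_zero {P : W.toAffine.Point} (hP : P ≠ 0)
    (hf : fpol (cA W) (cB W) (Xp W P) ≠ 0) : P + P ≠ 0 :=
  fun h => hf ((add_self_eq_zero_iff W hP).mp h)

/-- data attached to a nonzero 3-torsion point -/
lemma three_torsion_data {P : W.toAffine.Point} (hP : P ≠ 0) (h3 : 3 • P = 0) :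
    psi3 (cA W) (cB W) (Xp W P) = 0 ∧ fpol (cA W) (cB W) (Xp W P) ≠ 0 := by
  have h2 : P + P = -P := by
    have : P + P + P = 0 := by rw [← h3]; abel
    exact eq_neg_of_add_eq_zero_left this
  have h2ne : P + P ≠ 0 := by
    rw [h2]; exact neg_ne_zero.mpr hP
  have hf : fpol (cA W) (cB W) (Xp W P) ≠ 0 := fun h =>
    h2ne ((add_self_eq_zero_iff W hP).mpr h)
  refine ⟨?_, hf⟩
  have := Xp_double W hP hf
  rw [h2, Xp_neg] at this
  rw [psi3_eq, this, sub_self]

/-- data attached to a nonzero 5-torsion point -/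
lemma five_torsion_data {P : W.toAffine.Point} (hP : P ≠ 0) (h5 : 5 • P = 0) :
    fpol (cA W) (cB W) (Xp W P) ≠ 0 ∧ fpol (cA W) (cB W) (Xp W (P + P)) ≠ 0 ∧
    Xp W (P + P) * fpol (cA W) (cB W) (Xp W P) = ppol (cA W) (cB W) (Xp W P) ∧
    Xp W P * fpol (cA W) (cB W) (Xp W (P + P)) = ppol (cA W) (cB W) (Xp W (P + P)) ∧
    Xp W P ≠ Xp W (P + P) := by
  have h4 : (P + P) + (P + P) = -P := by
    have : (P + P) + (P + P) + P = 0 := by rw [← h5]; abel
    exact eq_neg_of_add_eq_zero_left this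
  have h2ne : P + P ≠ 0 := by
    intro h
    rw [h, add_zero] at h4
    exact hP (by rw [← neg_eq_zero, ← h4])
  have h4ne : (P + P) + (P + P) ≠ 0 := by
    rw [h4]; exact neg_ne_zero.mpr hP
  have hf1 : fpol (cA W) (cB W) (Xp W P) ≠ 0 := fun h =>
    h2ne ((add_self_eq_zero_iff W hP).mpr h)
  have hf2 : fpol (cA W) (cB W) (Xp W (P + P)) ≠ 0 := fun h =>
    h4ne ((add_self_eq_zero_iff W h2ne).mpr h)
  refine ⟨hf1, hf2, Xp_double W hP hf1, ?_, ?_⟩
  · have := Xp_double W h2ne hf2
    rwa [h4, Xp_neg] at this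
  · intro hX
    rcases eq_or_eq_neg_of_Xp_eq W hP h2ne hX with h | h
    · -- P = P + P → P = 0
      exact hP (by simpa using h.symm)
    · -- P = -(P+P) → 3P = 0 → P = 0
      have h3 : P + P + P = 0 := by
        nth_rewrite 3 [h]; abel
      have : P = 0 := by
        have e : P = (P + P + P) + (P + P + P) - 5 • P := by abel
        rw [e, h3, h5]; simp
      exact hP this

end Fermat.Agent.S51
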